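import Fermat.Agent.ECFormal.Good.KernelLaw

/-!
# Translations between an affine residue class and the kernel of reduction, as formulas

For a fixed integral point `R` with nonsingular reduction: `W ↦ R + W` on the kernel of reduction in
terms of `(z, w)`, and `P ↦ P - R` on points congruent to `R`, both with unit denominators.
-/

set_option autoImplicit false

universe v

noncomputable section

namespace Fermat.Agent.ECFormal.Good

open WeierstrassCurve
open Fermat.Agent.ECLocal

variable {K : Type v} [Field K] {A : ValuationSubring K} {V : WeierstrassCurve K}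

/-- The `x`-coordinate (`0` at infinity). -/
def xCoord : V.toAffine.Point → K
  | .zero => 0
  | .some x _ _ => x

/-- The `y`-coordinate (`0` at infinity). -/
def yCoord : V.toAffine.Point → K
  | .zero => 0
  | .some _ y _ => y

theorem xCoord_some {x y : K} (h : V.toAffine.Nonsingular x y) :
    xCoord (Affine.Point.some x y h) = x := rfl

theorem yCoord_some {x y : K} (h : V.toAffine.Nonsingular x y) :
    yCoord (Affine.Point.some x y h) = y := rfl

/-! ### `W ↦ R + W` -/

/-- `μ / z` for the chord from `R` to a kernel point. -/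
def transUnit (V : WeierstrassCurve K) (xr yr z w : K) : K :=
  (xr * z ^ 2 * (unitDen V z w)⁻¹ - 1) / (1 + yr * w)

/-- The constant coefficient of the quadratic cut out on the chord. -/
def transConst (V : WeierstrassCurve K) (xr yr μ : K) : K :=
  μ * (3 * xr ^ 2 + 2 * V.a₂ * xr + V.a₄) - (3 * xr + V.a₂) * μ ^ 2 * yr + μ ^ 3 * yr ^ 2
    - (yr + (V.a₁ * xr + V.a₃))

/-- `y` of the third point on the chord from `R` to a kernel point. -/
def transThirdY (V : WeierstrassCurve K) (xr yr z w : K) : K :=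
  -transConst V xr yr (z * transUnit V xr yr z w) * (unitDen V z w)⁻¹
    / transUnit V xr yr z w ^ 3

/-- `x` of `R + W`. -/
def transX (V : WeierstrassCurve K) (xr yr z w : K) : K :=
  xr + z * transUnit V xr yr z w * (transThirdY V xr yr z w - yr)

/-- `y` of `R + W`. -/
def transY (V : WeierstrassCurve K) (xr yr z w : K) : K :=
  V.toAffine.negY (transX V xr yr z w) (transThirdY V xr yr z w)

theorem small_inv_sub_one {u : K} (hu : A.valuation u = 1) (h : A.valuation (u - 1) < 1) :
    A.valuation (u⁻¹ - 1) < 1 := by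
  have hu0 := ne_zero_of_v_eq_one hu
  rw [show u⁻¹ - 1 = -(u - 1) / u by field_simp; ring]
  exact small_div_unit (small_neg h) hu

section Bounds

variable (hV : IntegralAt A V) {xr yr z w : K} (hxr : xr ∈ A) (hyr : yr ∈ A)
  (hz : A.valuation z < 1) (hw : A.valuation w < 1)

include hyr hw

theorem valuation_one_add_mul : A.valuation (1 + yr * w) = 1 :=
  unit_one_add (small_mul' hyr hw)

include hV hxr hz

theorem transUnit_spec :
    A.valuation (transUnit V xr yr z w) = 1 ∧ A.valuation (transUnit V xr yr z w + 1) < 1 := by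
  have hu := valuation_unitDen hV hz hw
  have huA : (unitDen V z w)⁻¹ ∈ A := (A.valuation_le_one_iff _).mp (by rw [map_inv₀, hu, inv_one])
  have hsmall : A.valuation (xr * z ^ 2 * (unitDen V z w)⁻¹) < 1 :=
    small_mul (small_mul' hxr (small_pow hz two_ne_zero)) huA
  have hd := valuation_one_add_mul hyr hw
  constructor
  · rw [transUnit, map_div₀, hd, div_one, ← Valuation.map_neg, neg_sub, unit_one_sub hsmall]
  · rw [transUnit, div_add_one (ne_zero_of_v_eq_one hd)]
    refine small_div_unit ?_ hd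
    rw [show xr * z ^ 2 * (unitDen V z w)⁻¹ - 1 + (1 + yr * w)
      = xr * z ^ 2 * (unitDen V z w)⁻¹ + yr * w by ring]
    exact small_add hsmall (small_mul' hyr hw)

theorem small_transThirdY :
    A.valuation (transThirdY V xr yr z w + (yr + (V.a₁ * xr + V.a₃))) < 1 := by
  obtain ⟨hm, hm1⟩ := transUnit_spec hV hxr hyr hz hw
  have hu := valuation_unitDen hV hz hw
  simp only [transThirdY]
  generalize hmd : transUnit V xr yr z w = m at hm hm1 ⊢
  have hmA : m ∈ A := (A.valuation_le_one_iff _).mp hm.le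
  have hμ : A.valuation (z * m) < 1 := small_mul hz hmA
  have hμA := mem_of_v_lt_one hμ
  have hh : yr + (V.a₁ * xr + V.a₃) ∈ A :=
    A.add_mem _ _ hyr (A.add_mem _ _ (A.mul_mem _ _ hV.a₁_mem hxr) hV.a₃_mem)
  have hm3 : A.valuation (m ^ 3) = 1 := by rw [map_pow, hm, one_pow]
  have hnum : A.valuation (-transConst V xr yr (z * m) * (unitDen V z w)⁻¹
      + (yr + (V.a₁ * xr + V.a₃)) * m ^ 3) < 1 := by
    rw [show -transConst V xr yr (z * m) * (unitDen V z w)⁻¹ + (yr + (V.a₁ * xr + V.a₃)) * m ^ 3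
      = (yr + (V.a₁ * xr + V.a₃)) * (((unitDen V z w)⁻¹ - 1) + (m + 1) * (m ^ 2 - m + 1))
        + (z * m) * (-((3 * xr ^ 2 + 2 * V.a₂ * xr + V.a₄) - (3 * xr + V.a₂) * (z * m) * yr
          + (z * m) ^ 2 * yr ^ 2) * (unitDen V z w)⁻¹) by rw [transConst]; ring]
    refine small_add (small_mul' hh (small_add (small_inv_sub_one hu ?_) (small_mul hm1 ?_)))
      (small_mul hμ ?_)
    · rw [unitDen, sub_sub_cancel_left, Valuation.map_neg]
      have hzA := mem_of_v_lt_one hz
      exact small_add (small_add (small_add (small_add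
        (small_mul' hV.a₁_mem hz) (small_mul' hV.a₂_mem (small_pow hz two_ne_zero)))
        (small_mul' hV.a₃_mem hw)) (small_mul' (A.mul_mem _ _ hV.a₄_mem hzA) hw))
        (small_mul' hV.a₆_mem (small_pow hw two_ne_zero))
    · exact A.add_mem _ _ (A.toSubring.sub_mem (pow_mem hmA 2) hmA) A.one_mem
    · refine A.mul_mem _ _ (A.neg_mem _ (A.add_mem _ _ (A.toSubring.sub_mem
        (A.add_mem _ _ (A.add_mem _ _ (A.mul_mem _ _ (ECLocal.ofNat_mem A 3) (pow_mem hxr 2))
          (A.mul_mem _ _ (two_mul_mem hV.a₂_mem) hxr)) hV.a₄_mem) ?_)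
        (A.mul_mem _ _ (pow_mem hμA 2) (pow_mem hyr 2)))) ?_
      · exact A.mul_mem _ _ (A.mul_mem _ _ (A.add_mem _ _
          (A.mul_mem _ _ (ECLocal.ofNat_mem A 3) hxr) hV.a₂_mem) hμA) hyr
      · exact (A.valuation_le_one_iff _).mp (by rw [map_inv₀, hu, inv_one])
  rw [div_add' _ _ _ (ne_zero_of_v_eq_one hm3)]
  exact small_div_unit hnum hm3

theorem small_transX : A.valuation (transX V xr yr z w - xr) < 1 := by
  rw [transX, add_sub_cancel_left]
  obtain ⟨hm, -⟩ := transUnit_spec hV hxr hyr hz hw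
  have hh : yr + (V.a₁ * xr + V.a₃) ∈ A :=
    A.add_mem _ _ hyr (A.add_mem _ _ (A.mul_mem _ _ hV.a₁_mem hxr) hV.a₃_mem)
  refine small_mul (small_mul hz ((A.valuation_le_one_iff _).mp hm.le)) ?_
  have := A.toSubring.sub_mem (A.toSubring.sub_mem
    (mem_of_v_lt_one (small_transThirdY hV hxr hyr hz hw)) hh) hyr
  simpa using this

theorem small_transY : A.valuation (transY V xr yr z w - yr) < 1 := by
  rw [transY, Affine.negY, show -transThirdY V xr yr z w - V.a₁ * transX V xr yr z w - V.a₃ - yr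
    = -(transThirdY V xr yr z w + (yr + (V.a₁ * xr + V.a₃)))
      - V.a₁ * (transX V xr yr z w - xr) by ring]
  exact small_sub (small_neg (small_transThirdY hV hxr hyr hz hw))
    (small_mul' hV.a₁_mem (small_transX hV hxr hyr hz hw))

end Bounds

/-- `R + W` for an integral `R` and `W` in the kernel of reduction. -/
theorem translate_law [DecidableEq K] (hV : IntegralAt A V) {xr yr : K}
    (hR : V.toAffine.Nonsingular xr yr) (hxr : xr ∈ A) {W : V.toAffine.Point}
    (hW : InKernel A W) :
    ∃ h, Affine.Point.some xr yr hR + W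
      = Affine.Point.some (transX V xr yr (zCoord W) (wCoord W))
          (transY V xr yr (zCoord W) (wCoord W)) h := by
  have hyr := y_mem_of_x_mem hV hR.1 hxr
  match W, hW with
  | .zero, _ =>
    have hY : transY V xr yr (0 : K) 0 = yr := by
      simp [transY, transX, transThirdY, transConst, transUnit, unitDen, Affine.negY]
      ring
    have hX : transX V xr yr (0 : K) 0 = xr := by simp [transX]
    refine ⟨?_, ?_⟩
    · rw [← Affine.Point.zero_def, zCoord_zero, wCoord_zero, hX, hY]; exact hR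
    · simp only [← Affine.Point.zero_def, zCoord_zero, wCoord_zero, hX, hY, add_zero]
  | .some xw yw hw', hW =>
    rw [inKernel_some_iff] at hW
    obtain ⟨hyw, -, hz0, -, -⟩ := zw_of_not_mem hV hw'.1 hW
    obtain ⟨hz, hw, he⟩ := kernel_coords hV (P := Affine.Point.some xw yw hw') hW
    simp only [zCoord_some, wCoord_some] at hz hw he ⊢
    have hne : xr ≠ xw := fun h => hW (h ▸ hxr)
    have hu0 := ne_zero_of_v_eq_one (valuation_unitDen hV hz hw)
    have hd0 := ne_zero_of_v_eq_one (valuation_one_add_mul hyr hw)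
    have hm0 := ne_zero_of_v_eq_one (transUnit_spec hV hxr hyr hz hw).1
    have hzne : -xw / yw ≠ 0 := fun h => by
      rw [h, map_zero] at hz0; exact lt_irrefl _ hz0
    have hw3 : (-xw / yw) ^ 3 * (unitDen V (-xw / yw) (-1 / yw))⁻¹ = -1 / yw := by
      rw [← div_eq_mul_inv, div_eq_iff hu0, unitDen]
      rw [zwRHS] at he
      linear_combination -he
    have hμ : (-xw / yw) * transUnit V xr yr (-xw / yw) (-1 / yw) * (yw - yr) = xw - xr := by
      rw [transUnit, mul_div_assoc', div_mul_eq_mul_div, div_eq_iff hd0]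
      have e1 : xr * (-xw / yw) ^ 2 * (unitDen V (-xw / yw) (-1 / yw))⁻¹ * (-xw / yw)
          = xr * (-1 / yw) := by
        calc xr * (-xw / yw) ^ 2 * (unitDen V (-xw / yw) (-1 / yw))⁻¹ * (-xw / yw)
            = xr * ((-xw / yw) ^ 3 * (unitDen V (-xw / yw) (-1 / yw))⁻¹) := by ring
          _ = _ := by rw [hw3]
      calc -xw / yw * (xr * (-xw / yw) ^ 2 * (unitDen V (-xw / yw) (-1 / yw))⁻¹ - 1) * (yw - yr)
          = (xr * (-1 / yw) - (-xw / yw)) * (yw - yr) := by rw [← e1]; ring
        _ = (xw - xr) * (1 + yr * (-1 / yw)) := by field_simp; ring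
    generalize hμd : (-xw / yw) * transUnit V xr yr (-xw / yw) (-1 / yw) = μ at hμ
    have hμ0 : μ ≠ 0 := hμd ▸ mul_ne_zero hzne hm0
    have hy' : transThirdY V xr yr (-xw / yw) (-1 / yw)
        = transConst V xr yr μ / (μ ^ 3 * yw) := by
      rw [transThirdY, hμd, eq_div_iff (mul_ne_zero (pow_ne_zero 3 hμ0) hyw), ← hμd, mul_pow]
      generalize transConst V xr yr _ = Cq
      generalize hmd : transUnit V xr yr (-xw / yw) (-1 / yw) = m at hm0
      calc -Cq * (unitDen V (-xw / yw) (-1 / yw))⁻¹ / m ^ 3 * ((-xw / yw) ^ 3 * m ^ 3 * yw)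
          = -Cq * ((-xw / yw) ^ 3 * (unitDen V (-xw / yw) (-1 / yw))⁻¹) * yw := by
            field_simp
        _ = Cq := by rw [hw3]; field_simp
    have hℓ : V.toAffine.slope xr xw yr yw = μ⁻¹ := by
      rw [Affine.slope_of_X_ne hne, div_eq_iff (sub_ne_zero.2 hne),
        show xr - xw = -(μ * (yw - yr)) by rw [hμ]; ring]
      field_simp
      ring
    have hxw : xw = xr + μ * (yw - yr) := by rw [hμ]; ring
    have hneg : transThirdY V xr yr (-xw / yw) (-1 / yw)
        = V.toAffine.negAddY xr xw yr (μ⁻¹) := by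
      rw [hy', Affine.negAddY, Affine.addX, div_eq_iff (mul_ne_zero (pow_ne_zero 3 hμ0) hyw)]
      have hr := (Affine.equation_iff _ _).mp hR.1
      have hwe := (Affine.equation_iff _ _).mp hw'.1
      rw [hxw] at hwe ⊢
      have hyne : yw - yr ≠ 0 := fun h0 => hne (by rw [hxw, h0, mul_zero, add_zero])
      have hQ : μ ^ 3 * yw ^ 2 + ((3 * xr + V.a₂) * μ ^ 2 - 2 * μ ^ 3 * yr - 1 - V.a₁ * μ) * yw
          + transConst V xr yr μ = 0 := by
        refine (mul_eq_zero.mp ?_).resolve_left hyne
        rw [transConst]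
        linear_combination hr - hwe
      field_simp
      linear_combination hQ
    have hx' : transX V xr yr (-xw / yw) (-1 / yw) = V.toAffine.addX xr xw (μ⁻¹) := by
      rw [transX, hμd, hneg, Affine.negAddY]
      field_simp
      ring
    refine ⟨?_, ?_⟩
    · rw [transY, hneg, hx']
      have := Affine.nonsingular_add hR hw' (fun h => hne h.1)
      rw [hℓ, Affine.addY] at this
      exact this
    · rw [Affine.Point.add_of_X_ne hne]
      simp only [transY, hneg, hx', hℓ, Affine.addY]

/-! ### `P ↦ P - R` -/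

open scoped Classical in
/-- The reciprocal slope of the chord from `-R` to a point congruent to `R`. -/
def diffMu (A : ValuationSubring K) (V : WeierstrassCurve K) (xr yr x y : K) : K :=
  if A.valuation (2 * yr + V.a₁ * xr + V.a₃) = 1 then (x - xr) / (y - V.toAffine.negY xr yr)
  else (y + V.toAffine.negY xr yr + V.a₁ * x + V.a₃)
    / (x ^ 2 + x * xr + xr ^ 2 + V.a₂ * (x + xr) + V.a₄ - V.a₁ * V.toAffine.negY xr yr)

/-- `x(P - R) μ²`. -/
def diffD (V : WeierstrassCurve K) (xr x μ : K) : K :=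
  1 + (V.a₁ * μ - (V.a₂ + x + xr) * μ ^ 2)

/-- `y(P - R) μ³`. -/
def diffE (V : WeierstrassCurve K) (xr x y μ : K) : K :=
  -diffD V xr x μ + (μ ^ 2 * x - V.a₁ * μ * diffD V xr x μ - μ ^ 3 * (y + V.a₃))

/-- `z(P - R)`. -/
def diffZ (A : ValuationSubring K) (V : WeierstrassCurve K) (xr yr x y : K) : K :=
  -(diffMu A V xr yr x y * diffD V xr x (diffMu A V xr yr x y))
    / diffE V xr x y (diffMu A V xr yr x y)

/-- `w(P - R)`. -/
def diffW (A : ValuationSubring K) (V : WeierstrassCurve K) (xr yr x y : K) : K :=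
  -(diffMu A V xr yr x y ^ 3) / diffE V xr x y (diffMu A V xr yr x y)

section DiffBounds

variable (hV : IntegralAt A V) {xr yr x y : K} (hxr : xr ∈ A) (hyr : yr ∈ A)
  (hx : A.valuation (x - xr) < 1) (hy : A.valuation (y - yr) < 1)

include hV hy in
theorem valuation_diffDen (hψ : A.valuation (2 * yr + V.a₁ * xr + V.a₃) = 1) :
    A.valuation (y - V.toAffine.negY xr yr) = 1 := by
  have := hV
  rw [Affine.negY, show y - (-yr - V.a₁ * xr - V.a₃)
    = (2 * yr + V.a₁ * xr + V.a₃) + (y - yr) by ring,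
    A.valuation.map_add_eq_of_lt_left (by rw [hψ]; exact hy), hψ]

include hV hxr hx in
theorem valuation_diffNum (hψ : A.valuation (2 * yr + V.a₁ * xr + V.a₃) < 1)
    (hns : A.valuation (V.a₁ * yr - (3 * xr ^ 2 + 2 * V.a₂ * xr + V.a₄)) = 1) :
    A.valuation (x ^ 2 + x * xr + xr ^ 2 + V.a₂ * (x + xr) + V.a₄
      - V.a₁ * V.toAffine.negY xr yr) = 1 := by
  have hxA : x ∈ A := by
    have := A.add_mem _ _ (mem_of_v_lt_one hx) hxr
    rwa [sub_add_cancel] at this
  rw [Affine.negY, show x ^ 2 + x * xr + xr ^ 2 + V.a₂ * (x + xr) + V.a₄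
      - V.a₁ * (-yr - V.a₁ * xr - V.a₃)
    = -(V.a₁ * yr - (3 * xr ^ 2 + 2 * V.a₂ * xr + V.a₄))
      + (V.a₁ * (2 * yr + V.a₁ * xr + V.a₃) + (x - xr) * (x + 2 * xr + V.a₂)) by ring,
    A.valuation.map_add_eq_of_lt_left, Valuation.map_neg, hns]
  rw [Valuation.map_neg, hns]
  exact small_add (small_mul' hV.a₁_mem hψ) (small_mul hx
    (A.add_mem _ _ (A.add_mem _ _ hxA (two_mul_mem hxr)) hV.a₂_mem))

variable (hns : A.valuation (2 * yr + V.a₁ * xr + V.a₃) ≠ 1 →
    A.valuation (V.a₁ * yr - (3 * xr ^ 2 + 2 * V.a₂ * xr + V.a₄)) = 1)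

include hV hxr hyr hx hy hns

theorem small_diffMu : A.valuation (diffMu A V xr yr x y) < 1 := by
  rw [diffMu]
  split_ifs with hψ
  · exact small_div_unit hx (valuation_diffDen hV hy hψ)
  · have hψ' := lt_of_le_of_ne (v_le_one (polyY_mem hV hxr hyr)) hψ
    refine small_div_unit ?_ (valuation_diffNum hV hxr hx hψ' (hns hψ))
    rw [Affine.negY, show y + (-yr - V.a₁ * xr - V.a₃) + V.a₁ * x + V.a₃
      = (y - yr) + V.a₁ * (x - xr) by ring]
    exact small_add hy (small_mul' hV.a₁_mem hx)

theorem valuation_diffE : A.valuation (diffE V xr x y (diffMu A V xr yr x y)) = 1 := by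
  have hμ := small_diffMu hV hxr hyr hx hy hns
  generalize diffMu A V xr yr x y = μ at hμ
  have hxA : x ∈ A := by
    have := A.add_mem _ _ (mem_of_v_lt_one hx) hxr
    rwa [sub_add_cancel] at this
  have hyA : y ∈ A := by
    have := A.add_mem _ _ (mem_of_v_lt_one hy) hyr
    rwa [sub_add_cancel] at this
  have hD : A.valuation (diffD V xr x μ) = 1 :=
    unit_one_add (small_sub (small_mul' hV.a₁_mem hμ)
      (small_mul' (A.add_mem _ _ (A.add_mem _ _ hV.a₂_mem hxA) hxr) (small_pow hμ two_ne_zero)))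
  rw [diffE, A.valuation.map_add_eq_of_lt_left, Valuation.map_neg, hD]
  rw [Valuation.map_neg, hD]
  exact small_sub (small_sub (small_mul (small_pow hμ two_ne_zero) hxA)
    (small_mul (small_mul' hV.a₁_mem hμ) ((A.valuation_le_one_iff _).mp hD.le)))
    (small_mul (small_pow hμ three_ne_zero) (A.add_mem _ _ hyA hV.a₃_mem))

end DiffBounds

/-- `P - R` for `P` congruent to the integral point `R`. -/
theorem diff_law [DecidableEq K] (hV : IntegralAt A V) {xr yr x y : K}
    (hR : V.toAffine.Nonsingular xr yr) (hP : V.toAffine.Nonsingular x y) (hxr : xr ∈ A)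
    (hns : NonsingRed A (Affine.Point.some xr yr hR))
    (hx : A.valuation (x - xr) < 1) (hy : A.valuation (y - yr) < 1) :
    zCoord (Affine.Point.some x y hP - Affine.Point.some xr yr hR) = diffZ A V xr yr x y ∧
      wCoord (Affine.Point.some x y hP - Affine.Point.some xr yr hR)
        = diffW A V xr yr x y := by
  have hyr := y_mem_of_x_mem hV hR.1 hxr
  have hns' : A.valuation (2 * yr + V.a₁ * xr + V.a₃) ≠ 1 →
      A.valuation (V.a₁ * yr - (3 * xr ^ 2 + 2 * V.a₂ * xr + V.a₄)) = 1 :=
    fun h => ((nonsingRed_some_iff hxr hyr).mp hns).resolve_right h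
  have hμs := small_diffMu hV hxr hyr hx hy hns'
  have hE := valuation_diffE hV hxr hyr hx hy hns'
  rw [sub_eq_add_neg, Affine.Point.neg_some]
  simp only [diffZ, diffW]
  by_cases hxy : x = xr ∧ y = V.toAffine.negY xr (V.toAffine.negY xr yr)
  · rw [Affine.Point.add_of_Y_eq hxy.1 hxy.2, zCoord_zero, wCoord_zero]
    rw [Affine.negY_negY] at hxy
    obtain ⟨rfl, rfl⟩ := hxy
    have hμ0 : diffMu A V x y x y = 0 := by
      rw [diffMu]
      split_ifs with hψ
      · simp
      · rw [Affine.negY]; ring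
    simp [hμ0]
  · have hmul := slope_mul_eq hP.1 ((Affine.equation_neg xr yr).mpr hR.1) hxy
    have hμℓ : V.toAffine.slope x xr y (V.toAffine.negY xr yr) * diffMu A V xr yr x y = 1 := by
      rw [diffMu]
      split_ifs with hψ
      · have hd := ne_zero_of_v_eq_one (valuation_diffDen hV hy hψ)
        have hxne : x ≠ xr := by
          intro hxe
          have := Affine.Y_eq_of_Y_ne hP.1 ((Affine.equation_neg xr yr).mpr hR.1) hxe
            (fun h => hxy ⟨hxe, h⟩)
          exact hd (sub_eq_zero.mpr this)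
        rw [Affine.slope_of_X_ne hxne]
        field_simp [sub_ne_zero.2 hxne]
      · have hψ' := lt_of_le_of_ne (v_le_one (polyY_mem hV hxr hyr)) hψ
        have hN := ne_zero_of_v_eq_one (valuation_diffNum hV hxr hx hψ' (hns' hψ))
        rw [mul_div_assoc', hmul, div_self hN]
    rw [Affine.Point.add_some hxy, zCoord_some, wCoord_some]
    generalize V.toAffine.slope x xr y (V.toAffine.negY xr yr) = ℓ at hμℓ ⊢
    generalize diffMu A V xr yr x y = μ at hμℓ hμs hE ⊢
    have hμ0 : μ ≠ 0 := right_ne_zero_of_mul_eq_one hμℓ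
    obtain rfl : ℓ = μ⁻¹ := eq_inv_of_mul_eq_one_left hμℓ
    have hX : V.toAffine.addX x xr μ⁻¹ = diffD V xr x μ / μ ^ 2 := by
      rw [diffD, Affine.addX]; field_simp; ring
    have hY : V.toAffine.addY x xr y μ⁻¹ = diffE V xr x y μ / μ ^ 3 := by
      rw [Affine.addY, Affine.negAddY, hX, diffE, Affine.negY]; field_simp; ring
    have hE0 := ne_zero_of_v_eq_one hE
    rw [hX, hY]
    constructor <;> field_simp

end Fermat.Agent.ECFormal.Good
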