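import Mathlib.RingTheory.Valuation.ValuationSubring
import Mathlib.RingTheory.Adjoin.Basic
import Mathlib.Algebra.Polynomial.AlgebraMap
import Mathlib.Data.Fintype.BigOperators

/-!
# Algebras of integral valued functions on a finite set, piece by piece

For an `A`-algebra `S` of `A`-valued functions on a finite set, `onSet S Z` is the algebra of
functions agreeing on `Z` with a member of `S`. It is closed under inversion of functions with unit
values, and membership glues along pieces whose indicators lie in `S`.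
-/

set_option autoImplicit false

noncomputable section

namespace Fermat.Agent.ECFormal.Good

open Polynomial

variable {K X : Type*} [Field K] {A : ValuationSubring K}

/-- The functions agreeing on `Z` with a member of `S`. -/
def onSet (S : Subalgebra A (X → K)) (Z : Set X) : Subalgebra A (X → K) where
  carrier := {f | ∃ g ∈ S, ∀ x ∈ Z, g x = f x}
  mul_mem' := by
    rintro f f' ⟨g, hg, h⟩ ⟨g', hg', h'⟩
    exact ⟨g * g', S.mul_mem hg hg', fun x hx => by simp [h x hx, h' x hx]⟩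
  add_mem' := by
    rintro f f' ⟨g, hg, h⟩ ⟨g', hg', h'⟩
    exact ⟨g + g', S.add_mem hg hg', fun x hx => by simp [h x hx, h' x hx]⟩
  algebraMap_mem' := fun c => ⟨_, S.algebraMap_mem c, fun _ _ => rfl⟩

variable {S : Subalgebra A (X → K)} {Z : Set X}

theorem mem_onSet_iff {f : X → K} : f ∈ onSet S Z ↔ ∃ g ∈ S, ∀ x ∈ Z, g x = f x := Iff.rfl

theorem mem_onSet_of_mem {f : X → K} (h : f ∈ S) : f ∈ onSet S Z := ⟨f, h, fun _ _ => rfl⟩

theorem mem_onSet_congr {f g : X → K} (hf : f ∈ onSet S Z) (h : ∀ x ∈ Z, f x = g x) :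
    g ∈ onSet S Z := by
  obtain ⟨u, hu, hu'⟩ := hf
  exact ⟨u, hu, fun x hx => (hu' x hx).trans (h x hx)⟩

theorem mem_of_mem_onSet_univ {f : X → K} (h : f ∈ onSet S Set.univ) : f ∈ S := by
  obtain ⟨g, hg, h⟩ := h
  rwa [show f = g from funext fun x => (h x trivial).symm]

theorem const_mem_onSet {c : K} (hc : c ∈ A) : (fun _ => c) ∈ onSet S Z :=
  ⟨_, S.algebraMap_mem ⟨c, hc⟩, fun _ _ => rfl⟩

theorem adjoin_values_mem {Φ : Set (X → K)} (h : ∀ φ ∈ Φ, ∀ x, φ x ∈ A) {f : X → K}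
    (hf : f ∈ Algebra.adjoin A Φ) (x : X) : f x ∈ A := by
  induction hf using Algebra.adjoin_induction with
  | mem f hf => exact h f hf x
  | algebraMap c => exact c.2
  | add f g _ _ hf hg => exact A.add_mem _ _ hf hg
  | mul f g _ _ hf hg => exact A.mul_mem _ _ hf hg

variable [Finite X]

/-- A member with unit values everywhere is invertible in `S`. -/
theorem inv_mem_of_unit (hval : ∀ f ∈ S, ∀ x, f x ∈ A) {b : X → K} (hb : b ∈ S)
    (hu : ∀ x, A.valuation (b x) = 1) : (fun x => (b x)⁻¹) ∈ S := by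
  have := Fintype.ofFinite X
  let P : A[X] := ∏ x : X, (Polynomial.X - C (⟨b x, hval b hb x⟩ : A))
  have h0 : P.coeff 0 = ∏ x : X, -(⟨b x, hval b hb x⟩ : A) := by
    simp [P, coeff_zero_eq_eval_zero, eval_prod]
  have hP0 : IsUnit (P.coeff 0) := by
    rw [h0]
    refine IsUnit.prod_univ_iff.mpr fun x => IsUnit.neg ?_
    exact (A.valuation_eq_one_iff _).mpr (hu x)
  obtain ⟨c, hc⟩ := hP0
  have hsplit : ∀ x : X, b x * (aeval b P.divX) x = -((c : A) : K) := by
    intro x
    have hz : (aeval b P) x = 0 := by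
      rw [show (aeval b P) x = Pi.evalAlgHom A (fun _ : X => K) x (aeval b P) from rfl,
        ← aeval_algHom_apply, Pi.evalAlgHom_apply]
      simp only [P, map_prod]
      exact Finset.prod_eq_zero (Finset.mem_univ x)
        (by rw [map_sub, aeval_X, aeval_C]; exact sub_self _)
    rw [← X_mul_divX_add P, map_add, map_mul, aeval_X, aeval_C, ← hc] at hz
    exact eq_neg_of_add_eq_zero_left hz
  have hmem : algebraMap A (X → K) (-(↑c⁻¹ : A)) * aeval b P.divX ∈ S :=
    S.mul_mem (S.algebraMap_mem _) (Algebra.adjoin_le (Set.singleton_subset_iff.mpr hb)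
      (aeval_mem_adjoin_singleton A b))
  convert hmem using 1
  funext x
  have hb0 : b x ≠ 0 := fun h => by simpa [h] using hu x
  have hcc : ((↑c⁻¹ : A) : K) * ((c : A) : K) = 1 := by
    rw [← MulMemClass.coe_mul, Units.inv_mul, OneMemClass.coe_one]
  show (b x)⁻¹ = (-(↑c⁻¹ : A) : A) * (aeval b P.divX) x
  rw [show ((-(↑c⁻¹ : A) : A) : K) = -((↑c⁻¹ : A) : K) from rfl]
  apply mul_left_cancel₀ hb0
  rw [mul_inv_cancel₀ hb0]
  linear_combination ((↑c⁻¹ : A) : K) * hsplit x - hcc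

/-- Inversion on a piece whose indicator lies in `S`. -/
theorem inv_mem_onSet (hval : ∀ f ∈ S, ∀ x, f x ∈ A) (hZ : Z.indicator (fun _ => (1 : K)) ∈ S)
    {f : X → K} (hf : f ∈ onSet S Z) (hu : ∀ x ∈ Z, A.valuation (f x) = 1) :
    (fun x => (f x)⁻¹) ∈ onSet S Z := by
  classical
  obtain ⟨g, hg, hgf⟩ := hf
  refine ⟨_, inv_mem_of_unit hval (S.add_mem (S.mul_mem hZ hg) (S.sub_mem S.one_mem hZ))
    (fun x => ?_), fun x hx => ?_⟩
  · by_cases hx : x ∈ Z
    · simpa [Set.indicator_of_mem hx, hgf x hx] using hu x hx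
    · simp [Set.indicator_of_notMem hx]
  · simp [Set.indicator_of_mem hx, hgf x hx]

/-- Division on a piece. -/
theorem div_mem_onSet (hval : ∀ f ∈ S, ∀ x, f x ∈ A) (hZ : Z.indicator (fun _ => (1 : K)) ∈ S)
    {f d : X → K} (hf : f ∈ onSet S Z) (hd : d ∈ onSet S Z)
    (hu : ∀ x ∈ Z, A.valuation (d x) = 1) : (fun x => f x / d x) ∈ onSet S Z := by
  simp only [div_eq_mul_inv]
  exact (onSet S Z).mul_mem hf (inv_mem_onSet hval hZ hd hu)

omit [Finite X] in
/-- Gluing two pieces. -/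
theorem mem_onSet_union {Z₁ Z₂ : Set X} (h₁ : Z₁.indicator (fun _ => (1 : K)) ∈ S) {f : X → K}
    (hf₁ : f ∈ onSet S Z₁) (hf₂ : f ∈ onSet S Z₂) : f ∈ onSet S (Z₁ ∪ Z₂) := by
  classical
  obtain ⟨g₁, hg₁, e₁⟩ := hf₁
  obtain ⟨g₂, hg₂, e₂⟩ := hf₂
  refine ⟨_, S.add_mem (S.mul_mem h₁ hg₁) (S.mul_mem (S.sub_mem S.one_mem h₁) hg₂), fun x hx => ?_⟩
  by_cases hx1 : x ∈ Z₁
  · simp [Set.indicator_of_mem hx1, e₁ x hx1]
  · simp [Set.indicator_of_notMem hx1, e₂ x (hx.resolve_left hx1)]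

omit [Finite X] in
/-- Gluing finitely many pieces covering everything. -/
theorem mem_of_cover {ι : Type*} [Finite ι] (Z : ι → Set X) (hcover : ∀ x, ∃ i, x ∈ Z i)
    (hZ : ∀ i, (Z i).indicator (fun _ => (1 : K)) ∈ S) {f : X → K}
    (hf : ∀ i, f ∈ onSet S (Z i)) : f ∈ S := by
  classical
  have := Fintype.ofFinite ι
  suffices ∀ s : Finset ι, (⋃ i ∈ s, Z i).indicator (fun _ => (1 : K)) ∈ S ∧
      f ∈ onSet S (⋃ i ∈ s, Z i) by
    apply mem_of_mem_onSet_univ
    have h := (this Finset.univ).2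
    rwa [show (⋃ i ∈ (Finset.univ : Finset ι), Z i) = Set.univ from
      Set.eq_univ_of_forall fun x => by simpa using hcover x] at h
  intro s
  induction s using Finset.induction_on with
  | empty =>
    have e : ((⋃ i ∈ (∅ : Finset ι), Z i) : Set X) = ∅ := by simp
    rw [e]
    refine ⟨?_, 0, S.zero_mem, fun x hx => hx.elim⟩
    rw [Set.indicator_empty]; exact S.zero_mem
  | insert i s _ ih =>
    rw [Finset.set_biUnion_insert]
    refine ⟨?_, mem_onSet_union (hZ i) (hf i) ih.2⟩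
    convert S.sub_mem S.one_mem (S.mul_mem (S.sub_mem S.one_mem (hZ i))
      (S.sub_mem S.one_mem ih.1)) using 1
    funext x
    by_cases h1 : x ∈ Z i <;> by_cases h2 : x ∈ ⋃ j ∈ s, Z j <;>
      simp [Set.indicator, h1, h2]

end Fermat.Agent.ECFormal.Good
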