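import Fermat.Agent.ECFormal.Good.AffineLaw
import Fermat.Agent.ECFormal.Good.PieceAlgebra

/-!
# Families of points with coordinates in an algebra of functions

`KerIn S Z f`: on `Z` the points `f x` lie in the kernel of reduction and their `(z, w)` are in
`onSet S Z`. These families are closed under addition; translation to and from an affine residue
class preserves membership.
-/

set_option autoImplicit false

universe v

noncomputable section

namespace Fermat.Agent.ECFormal.Good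

open WeierstrassCurve
open Fermat.Agent.ECLocal

variable {K : Type v} [Field K] [DecidableEq K] {X : Type*} [Finite X] {A : ValuationSubring K}
  {V : WeierstrassCurve K} {S : Subalgebra A (X → K)} {Z : Set X}

/-- A family of points of the kernel of reduction with coordinates in `S` on `Z`. -/
structure KerIn (S : Subalgebra A (X → K)) (Z : Set X) (f : X → V.toAffine.Point) : Prop where
  inKernel : ∀ x ∈ Z, InKernel A (f x)
  z_mem : (fun x => zCoord (f x)) ∈ onSet S Z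
  w_mem : (fun x => wCoord (f x)) ∈ onSet S Z

omit [DecidableEq K] [Finite X] in
theorem KerIn.const (hV : IntegralAt A V) {P : V.toAffine.Point} (hP : InKernel A P) :
    KerIn S Z (fun _ => P) :=
  ⟨fun _ _ => hP, const_mem_onSet (mem_of_v_lt_one (kernel_coords hV hP).1),
    const_mem_onSet (mem_of_v_lt_one (kernel_coords hV hP).2.1)⟩

omit [DecidableEq K] [Finite X] in
theorem KerIn.congr {f g : X → V.toAffine.Point} (hf : KerIn S Z f) (h : ∀ x ∈ Z, f x = g x) :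
    KerIn S Z g :=
  ⟨fun x hx => h x hx ▸ hf.inKernel x hx,
    mem_onSet_congr hf.z_mem fun x hx => by rw [h x hx],
    mem_onSet_congr hf.w_mem fun x hx => by rw [h x hx]⟩

variable (hV : IntegralAt A V) (hval : ∀ f ∈ S, ∀ x, f x ∈ A)
  (hZ : Z.indicator (fun _ => (1 : K)) ∈ S)

include hV hval hZ

theorem KerIn.add {f g : X → V.toAffine.Point} (hf : KerIn S Z f) (hg : KerIn S Z g) :
    KerIn S Z (fun x => f x + g x) := by
  have B := onSet S Z
  have c₁ : (fun _ => V.a₁) ∈ onSet S Z := const_mem_onSet hV.a₁_mem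
  have c₂ : (fun _ => V.a₂) ∈ onSet S Z := const_mem_onSet hV.a₂_mem
  have c₃ : (fun _ => V.a₃) ∈ onSet S Z := const_mem_onSet hV.a₃_mem
  have c₄ : (fun _ => V.a₄) ∈ onSet S Z := const_mem_onSet hV.a₄_mem
  have c₆ : (fun _ => V.a₆) ∈ onSet S Z := const_mem_onSet hV.a₆_mem
  have k1 : (fun _ => (1 : K)) ∈ onSet S Z := const_mem_onSet A.one_mem
  have k2 : (fun _ => (2 : K)) ∈ onSet S Z := const_mem_onSet (ECLocal.ofNat_mem A 2)
  have k3 : (fun _ => (3 : K)) ∈ onSet S Z := const_mem_onSet (ECLocal.ofNat_mem A 3)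
  have hb : ∀ x ∈ Z, A.valuation (zCoord (f x)) < 1 ∧ A.valuation (wCoord (f x)) < 1 ∧
      A.valuation (zCoord (g x)) < 1 ∧ A.valuation (wCoord (g x)) < 1 := fun x hx =>
    ⟨(kernel_coords hV (hf.inKernel x hx)).1, (kernel_coords hV (hf.inKernel x hx)).2.1,
      (kernel_coords hV (hg.inKernel x hx)).1, (kernel_coords hV (hg.inKernel x hx)).2.1⟩
  set z₁ := fun x => zCoord (f x)
  set w₁ := fun x => wCoord (f x)
  set z₂ := fun x => zCoord (g x)
  set w₂ := fun x => wCoord (g x)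
  have i₁ : z₁ ∈ onSet S Z := hf.z_mem
  have j₁ : w₁ ∈ onSet S Z := hf.w_mem
  have i₂ : z₂ ∈ onSet S Z := hg.z_mem
  have j₂ : w₂ ∈ onSet S Z := hg.w_mem
  have hH : (fun x => chordH V (z₁ x) (w₁ x) (w₂ x)) ∈ onSet S Z :=
    sub_mem k1 (add_mem (add_mem (add_mem (add_mem (mul_mem c₁ i₁) (mul_mem c₂ (pow_mem i₁ 2)))
      (mul_mem c₃ (add_mem j₁ j₂))) (mul_mem (mul_mem c₄ i₁) (add_mem j₁ j₂)))
      (mul_mem c₆ (add_mem (add_mem (pow_mem j₁ 2) (mul_mem j₁ j₂)) (pow_mem j₂ 2))))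
  have hG : (fun x => chordG V (z₁ x) (z₂ x) (w₂ x)) ∈ onSet S Z :=
    add_mem (add_mem (add_mem (add_mem (add_mem (pow_mem i₁ 2) (mul_mem i₁ i₂)) (pow_mem i₂ 2))
      (mul_mem c₁ j₂)) (mul_mem (mul_mem c₂ (add_mem i₁ i₂)) j₂)) (mul_mem c₄ (pow_mem j₂ 2))
  have hl : (fun x => chordLam V (z₁ x) (w₁ x) (z₂ x) (w₂ x)) ∈ onSet S Z :=
    div_mem_onSet hval hZ hG hH fun x hx =>
      valuation_chordH hV (hb x hx).1 (hb x hx).2.1 (hb x hx).2.2.2
  have hn : (fun x => chordNu V (z₁ x) (w₁ x) (z₂ x) (w₂ x)) ∈ onSet S Z :=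
    sub_mem j₁ (mul_mem hl i₁)
  have hc : (fun x => cubeLead V (chordLam V (z₁ x) (w₁ x) (z₂ x) (w₂ x))) ∈ onSet S Z :=
    add_mem k1 (add_mem (add_mem (mul_mem c₂ hl) (mul_mem c₄ (pow_mem hl 2)))
      (mul_mem c₆ (pow_mem hl 3)))
  have hc' : (fun x => cubeNext V (chordLam V (z₁ x) (w₁ x) (z₂ x) (w₂ x))
      (chordNu V (z₁ x) (w₁ x) (z₂ x) (w₂ x))) ∈ onSet S Z :=
    add_mem (add_mem (add_mem (add_mem (mul_mem c₁ hl) (mul_mem c₃ (pow_mem hl 2)))
      (mul_mem c₂ hn)) (mul_mem (mul_mem (mul_mem k2 c₄) hl) hn))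
      (mul_mem (mul_mem (mul_mem k3 c₆) (pow_mem hl 2)) hn)
  have hz3 : (fun x => thirdZ V (z₁ x) (w₁ x) (z₂ x) (w₂ x)) ∈ onSet S Z :=
    sub_mem (sub_mem (div_mem_onSet hval hZ (neg_mem hc') hc fun x hx =>
      valuation_cubeLead hV (hb x hx).1 (hb x hx).2.1 (hb x hx).2.2.1 (hb x hx).2.2.2) i₁) i₂
  have hw3 : (fun x => thirdW V (z₁ x) (w₁ x) (z₂ x) (w₂ x)) ∈ onSet S Z :=
    add_mem (mul_mem hl hz3) hn
  have hD : (fun x => negDen V (thirdZ V (z₁ x) (w₁ x) (z₂ x) (w₂ x))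
      (thirdW V (z₁ x) (w₁ x) (z₂ x) (w₂ x))) ∈ onSet S Z :=
    sub_mem k1 (add_mem (mul_mem c₁ hz3) (mul_mem c₃ hw3))
  have hu : ∀ x ∈ Z, A.valuation (negDen V (thirdZ V (z₁ x) (w₁ x) (z₂ x) (w₂ x))
      (thirdW V (z₁ x) (w₁ x) (z₂ x) (w₂ x))) = 1 := fun x hx =>
    valuation_negDen_third hV (hb x hx).1 (hb x hx).2.1 (hb x hx).2.2.1 (hb x hx).2.2.2
  refine ⟨fun x hx => (hf.inKernel x hx).add hV (hg.inKernel x hx), ?_, ?_⟩
  · exact mem_onSet_congr (div_mem_onSet hval hZ (neg_mem hz3) hD hu) fun x hx =>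
      (kernel_law hV (hf.inKernel x hx) (hg.inKernel x hx)).1.symm
  · exact mem_onSet_congr (div_mem_onSet hval hZ (neg_mem hw3) hD hu) fun x hx =>
      (kernel_law hV (hf.inKernel x hx) (hg.inKernel x hx)).2.symm

/-- Translation of a kernel family by an integral point has integral coordinates in `S`. -/
theorem translate_mem {f : X → V.toAffine.Point} (hf : KerIn S Z f) {xr yr : K}
    (hR : V.toAffine.Nonsingular xr yr) (hxr : xr ∈ A) :
    (fun x => xCoord (Affine.Point.some xr yr hR + f x)) ∈ onSet S Z ∧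
      (fun x => yCoord (Affine.Point.some xr yr hR + f x)) ∈ onSet S Z := by
  have hyr := y_mem_of_x_mem hV hR.1 hxr
  have c₁ : (fun _ => V.a₁) ∈ onSet S Z := const_mem_onSet hV.a₁_mem
  have c₂ : (fun _ => V.a₂) ∈ onSet S Z := const_mem_onSet hV.a₂_mem
  have c₃ : (fun _ => V.a₃) ∈ onSet S Z := const_mem_onSet hV.a₃_mem
  have c₄ : (fun _ => V.a₄) ∈ onSet S Z := const_mem_onSet hV.a₄_mem
  have c₆ : (fun _ => V.a₆) ∈ onSet S Z := const_mem_onSet hV.a₆_mem
  have k1 : (fun _ => (1 : K)) ∈ onSet S Z := const_mem_onSet A.one_mem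
  have k2 : (fun _ => (2 : K)) ∈ onSet S Z := const_mem_onSet (ECLocal.ofNat_mem A 2)
  have k3 : (fun _ => (3 : K)) ∈ onSet S Z := const_mem_onSet (ECLocal.ofNat_mem A 3)
  have kx : (fun _ => xr) ∈ onSet S Z := const_mem_onSet hxr
  have ky : (fun _ => yr) ∈ onSet S Z := const_mem_onSet hyr
  have hb : ∀ x ∈ Z, A.valuation (zCoord (f x)) < 1 ∧ A.valuation (wCoord (f x)) < 1 :=
    fun x hx => ⟨(kernel_coords hV (hf.inKernel x hx)).1, (kernel_coords hV (hf.inKernel x hx)).2.1⟩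
  set z := fun x => zCoord (f x)
  set w := fun x => wCoord (f x)
  have i : z ∈ onSet S Z := hf.z_mem
  have j : w ∈ onSet S Z := hf.w_mem
  have hu : (fun x => unitDen V (z x) (w x)) ∈ onSet S Z :=
    sub_mem k1 (add_mem (add_mem (add_mem (add_mem (mul_mem c₁ i) (mul_mem c₂ (pow_mem i 2)))
      (mul_mem c₃ j)) (mul_mem (mul_mem c₄ i) j)) (mul_mem c₆ (pow_mem j 2)))
  have hui : (fun x => (unitDen V (z x) (w x))⁻¹) ∈ onSet S Z :=
    inv_mem_onSet hval hZ hu fun x hx => valuation_unitDen hV (hb x hx).1 (hb x hx).2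
  have hm : (fun x => transUnit V xr yr (z x) (w x)) ∈ onSet S Z :=
    div_mem_onSet hval hZ (sub_mem (mul_mem (mul_mem kx (pow_mem i 2)) hui) k1)
      (add_mem k1 (mul_mem ky j)) fun x hx => valuation_one_add_mul hyr (hb x hx).2
  have hμ : (fun x => z x * transUnit V xr yr (z x) (w x)) ∈ onSet S Z := mul_mem i hm
  have hC : (fun x => transConst V xr yr (z x * transUnit V xr yr (z x) (w x))) ∈ onSet S Z :=
    sub_mem (add_mem (sub_mem
      (mul_mem hμ (add_mem (add_mem (mul_mem k3 (pow_mem kx 2)) (mul_mem (mul_mem k2 c₂) kx)) c₄))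
      (mul_mem (mul_mem (add_mem (mul_mem k3 kx) c₂) (pow_mem hμ 2)) ky))
      (mul_mem (pow_mem hμ 3) (pow_mem ky 2))) (add_mem ky (add_mem (mul_mem c₁ kx) c₃))
  have hY : (fun x => transThirdY V xr yr (z x) (w x)) ∈ onSet S Z :=
    div_mem_onSet hval hZ (mul_mem (neg_mem hC) hui) (pow_mem hm 3) fun x hx => by
      show A.valuation (transUnit V xr yr (z x) (w x) ^ 3) = 1
      rw [map_pow, (transUnit_spec hV hxr hyr (hb x hx).1 (hb x hx).2).1, one_pow]
  have hX : (fun x => transX V xr yr (z x) (w x)) ∈ onSet S Z :=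
    add_mem kx (mul_mem hμ (sub_mem hY ky))
  refine ⟨mem_onSet_congr hX fun x hx => ?_, mem_onSet_congr
    (sub_mem (sub_mem (neg_mem hY) (mul_mem c₁ hX)) c₃) fun x hx => ?_⟩
  · obtain ⟨h, e⟩ := translate_law hV hR hxr (hf.inKernel x hx)
    rw [e]; rfl
  · obtain ⟨h, e⟩ := translate_law hV hR hxr (hf.inKernel x hx)
    rw [e]; rfl

/-- Differences with an integral point give kernel families. -/
theorem KerIn.of_diff {f : X → V.toAffine.Point} {xr yr : K}
    (hR : V.toAffine.Nonsingular xr yr) (hxr : xr ∈ A)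
    (hns : NonsingRed A (Affine.Point.some xr yr hR))
    (hker : ∀ x ∈ Z, InKernel A (f x - Affine.Point.some xr yr hR))
    (hx : (fun x => xCoord (f x)) ∈ onSet S Z) (hy : (fun x => yCoord (f x)) ∈ onSet S Z) :
    KerIn S Z (fun x => f x - Affine.Point.some xr yr hR) := by
  have hyr := y_mem_of_x_mem hV hR.1 hxr
  have hns' : A.valuation (2 * yr + V.a₁ * xr + V.a₃) ≠ 1 →
      A.valuation (V.a₁ * yr - (3 * xr ^ 2 + 2 * V.a₂ * xr + V.a₄)) = 1 :=
    fun h => ((nonsingRed_some_iff hxr hyr).mp hns).resolve_right h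
  have aux : ∀ (P : V.toAffine.Point) (X' Y' : K) (h : V.toAffine.Nonsingular X' Y'),
      P = Affine.Point.some X' Y' h → A.valuation (X' - xr) < 1 → A.valuation (Y' - yr) < 1 →
      ∃ h', P = Affine.Point.some (xCoord P) (yCoord P) h' ∧
        A.valuation (xCoord P - xr) < 1 ∧ A.valuation (yCoord P - yr) < 1 := by
    rintro P X' Y' h rfl h1 h2
    exact ⟨h, rfl, h1, h2⟩
  have hform : ∀ x ∈ Z, ∃ h, f x = Affine.Point.some (xCoord (f x)) (yCoord (f x)) h ∧
      A.valuation (xCoord (f x) - xr) < 1 ∧ A.valuation (yCoord (f x) - yr) < 1 := by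
    intro x hx
    obtain ⟨hz, hw, -⟩ := kernel_coords hV (hker x hx)
    obtain ⟨h, e⟩ := translate_law hV hR hxr (hker x hx)
    rw [add_sub_cancel] at e
    exact aux (f x) _ _ h e (small_transX hV hxr hyr hz hw) (small_transY hV hxr hyr hz hw)
  have c₁ : (fun _ => V.a₁) ∈ onSet S Z := const_mem_onSet hV.a₁_mem
  have c₂ : (fun _ => V.a₂) ∈ onSet S Z := const_mem_onSet hV.a₂_mem
  have c₃ : (fun _ => V.a₃) ∈ onSet S Z := const_mem_onSet hV.a₃_mem
  have c₄ : (fun _ => V.a₄) ∈ onSet S Z := const_mem_onSet hV.a₄_mem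
  have k1 : (fun _ => (1 : K)) ∈ onSet S Z := const_mem_onSet A.one_mem
  have kx : (fun _ => xr) ∈ onSet S Z := const_mem_onSet hxr
  have kn : (fun _ => V.toAffine.negY xr yr) ∈ onSet S Z := const_mem_onSet (negY_mem hV hxr hyr)
  have hμ : (fun x => diffMu A V xr yr (xCoord (f x)) (yCoord (f x))) ∈ onSet S Z := by
    by_cases hψ : A.valuation (2 * yr + V.a₁ * xr + V.a₃) = 1
    · simp only [diffMu, if_pos hψ]
      exact div_mem_onSet hval hZ (sub_mem hx kx) (sub_mem hy kn) fun x hxZ => by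
        obtain ⟨-, -, -, h2⟩ := hform x hxZ
        exact valuation_diffDen hV h2 hψ
    · simp only [diffMu, if_neg hψ]
      refine div_mem_onSet hval hZ (add_mem (add_mem (add_mem hy kn) (mul_mem c₁ hx)) c₃)
        (sub_mem (add_mem (add_mem (add_mem (add_mem (pow_mem hx 2) (mul_mem hx kx)) (pow_mem kx 2))
          (mul_mem c₂ (add_mem hx kx))) c₄) (mul_mem c₁ kn)) fun x hxZ => ?_
      obtain ⟨-, -, h1, -⟩ := hform x hxZ
      exact valuation_diffNum hV hxr h1 (lt_of_le_of_ne (v_le_one (polyY_mem hV hxr hyr)) hψ)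
        (hns' hψ)
  have hD : (fun x => diffD V xr (xCoord (f x)) (diffMu A V xr yr (xCoord (f x)) (yCoord (f x))))
      ∈ onSet S Z :=
    add_mem k1 (sub_mem (mul_mem c₁ hμ) (mul_mem (add_mem (add_mem c₂ hx) kx) (pow_mem hμ 2)))
  have hE : (fun x => diffE V xr (xCoord (f x)) (yCoord (f x))
      (diffMu A V xr yr (xCoord (f x)) (yCoord (f x)))) ∈ onSet S Z :=
    add_mem (neg_mem hD) (sub_mem (sub_mem (mul_mem (pow_mem hμ 2) hx)
      (mul_mem (mul_mem c₁ hμ) hD)) (mul_mem (pow_mem hμ 3) (add_mem hy c₃)))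
  have hu : ∀ x ∈ Z, A.valuation (diffE V xr (xCoord (f x)) (yCoord (f x))
      (diffMu A V xr yr (xCoord (f x)) (yCoord (f x)))) = 1 := fun x hxZ => by
    obtain ⟨-, -, h1, h2⟩ := hform x hxZ
    exact valuation_diffE hV hxr hyr h1 h2 hns'
  have hzmem : (fun x => diffZ A V xr yr (xCoord (f x)) (yCoord (f x))) ∈ onSet S Z :=
    div_mem_onSet hval hZ (neg_mem (mul_mem hμ hD)) hE hu
  have hwmem : (fun x => diffW A V xr yr (xCoord (f x)) (yCoord (f x))) ∈ onSet S Z :=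
    div_mem_onSet hval hZ (neg_mem (pow_mem hμ 3)) hE hu
  refine ⟨hker, mem_onSet_congr hzmem fun x hxZ => ?_, mem_onSet_congr hwmem fun x hxZ => ?_⟩
  · obtain ⟨h, e, h1, h2⟩ := hform x hxZ
    rw [← (diff_law hV hR h hxr hns h1 h2).1, ← e]
  · obtain ⟨h, e, h1, h2⟩ := hform x hxZ
    rw [← (diff_law hV hR h hxr hns h1 h2).2, ← e]

end Fermat.Agent.ECFormal.Good
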