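import Fermat.Agent.ECFormal.Defs
import Fermat.Agent.ECFormal.Good.PointFunctions
import Fermat.Agent.ECFormal.FlatCriterion
import Fermat.Agent.ECLocal.Main
import Fermat.Agent.ECTorsion.Galois

/-!
# Good reduction: `E[p ^ n]` is finite flat at `p`

The generators are, for each class `R` modulo the kernel of reduction, the indicator of the class
and the indicator times the two coordinates suited to it: `(z, w)` on the kernel, `(x, y)` elsewhere.
-/

set_option autoImplicit false

noncomputable section

namespace Fermat.Agent.ECFormal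

open WeierstrassCurve
open Fermat.Agent.Galois (Qbar GalQ)
open Fermat.Agent.ECLocal (InKernel NonsingRed zCoord IntegralAt GoodAt)
open scoped WeierstrassCurve.Affine

namespace Good

variable (W : WeierstrassCurve ℤ) (A : ValuationSubring Qbar)

/-- First coordinate suited to the class of `R`. -/
def coordFst (R P : PointQbar W) : Qbar :=
  haveI := Classical.propDecidable (InKernel A R)
  if InKernel A R then zCoord P else xCoord P

/-- Second coordinate suited to the class of `R`. -/
def coordSnd (R P : PointQbar W) : Qbar :=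
  haveI := Classical.propDecidable (InKernel A R)
  if InKernel A R then wCoord P else yCoord P

/-- The class of `R`. -/
def classSet {n : ℕ} (R : Tors W n) : Set (Tors W n) :=
  {P | InKernel A ((P : PointQbar W) - (R : PointQbar W))}

/-- Indicator of a class. -/
def classInd {n : ℕ} (R : Tors W n) : Tors W n → Qbar :=
  (classSet W A R).indicator fun _ => (1 : Qbar)

/-- First coordinate on a class. -/
def classFst {n : ℕ} (R : Tors W n) : Tors W n → Qbar :=
  (classSet W A R).indicator fun P => coordFst W A (R : PointQbar W) (P : PointQbar W)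

/-- Second coordinate on a class. -/
def classSnd {n : ℕ} (R : Tors W n) : Tors W n → Qbar :=
  (classSet W A R).indicator fun P => coordSnd W A (R : PointQbar W) (P : PointQbar W)

/-- The generators. -/
def classGens (n : ℕ) : Set (Tors W n → Qbar) :=
  Set.range (classInd W A (n := n)) ∪ Set.range (classFst W A (n := n))
    ∪ Set.range (classSnd W A (n := n))

variable {W A} {p : ℕ}

lemma xy_mem_of_not_inKernel {P : PointQbar W} (hP : ¬ InKernel A P) :
    xCoord P ∈ A ∧ yCoord P ∈ A := by
  match P, hP with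
  | .zero, hP => exact absurd trivial hP
  | .some x y h, hP =>
    rw [ECLocal.inKernel_some_iff, not_not] at hP
    exact ⟨hP, ECLocal.y_mem_of_x_mem (ECLocal.integralAt_intModel W A) h.1 hP⟩

lemma kernelSub {P R : PointQbar W} (h : InKernel A (P - R)) :
    InKernel A P ↔ InKernel A R := by
  have hi := ECLocal.integralAt_intModel W A
  constructor
  · intro hP
    have := hP.add hi (h.neg hi)
    rwa [neg_sub, add_sub_cancel] at this
  · intro hR
    have := h.add hi hR
    rwa [sub_add_cancel] at this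

lemma classSet_iff_of_mem {n : ℕ} {P R Q : Tors W n} (h : P ∈ classSet W A R) :
    P ∈ classSet W A Q ↔ R ∈ classSet W A Q := by
  have hi := ECLocal.integralAt_intModel W A
  simp only [classSet, Set.mem_ofPred_eq] at h ⊢
  constructor
  · intro h'
    have := (h.neg hi).add hi h'
    rwa [neg_sub, sub_add_sub_cancel] at this
  · intro h'
    have := h.add hi h'
    rwa [sub_add_sub_cancel] at this

lemma zCoord_smul (σ : GalQ) (P : PointQbar W) :
    zCoord (σ • P) = σ (zCoord P) ∧ wCoord (σ • P) = σ (wCoord P) ∧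
      xCoord (σ • P) = σ (xCoord P) ∧ yCoord (σ • P) = σ (yCoord P) := by
  match P with
  | .zero => exact ⟨(_root_.map_zero σ).symm, (_root_.map_zero σ).symm, (_root_.map_zero σ).symm,
      (_root_.map_zero σ).symm⟩
  | .some x y h =>
    refine ⟨?_, ?_, ?_, ?_⟩
    · show -(σ x) / σ y = σ (-x / y)
      rw [map_div₀, map_neg]
    · show -1 / σ y = σ (-1 / y)
      rw [map_div₀, map_neg, map_one]
    · rfl
    · rfl

lemma inertia_classSet {n : ℕ} (hV : GoodAt A (curveQbar W)) {σ : GalQ}
    (hσ : σ ∈ A.inertiaSubgroupIn ℚ) (R P : Tors W n) :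
    σ • P ∈ classSet W A R ↔ P ∈ classSet W A R := by
  have hi := hV.toIntegralAt
  have hmove : ∀ Q : PointQbar W, InKernel A (σ • Q - Q) := fun Q =>
    ECLocal.inKernel_smul_sub hi hσ (ECLocal.nonsingRed_of_good hV Q)
  simp only [classSet, Set.mem_ofPred_eq]
  have hc : ((σ • P : Tors W n) : PointQbar W) = σ • (P : PointQbar W) := rfl
  rw [hc]
  constructor
  · intro h
    have := ((hmove P).neg hi).add hi h
    rwa [neg_sub, sub_add_sub_cancel] at this
  · intro h
    have := (hmove P).add hi h
    rwa [sub_add_sub_cancel] at this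

lemma classGens_values {n : ℕ} (hV : GoodAt A (curveQbar W)) :
    ∀ φ ∈ classGens W A n, ∀ P, φ P ∈ A := by
  have hi := hV.toIntegralAt
  rintro φ ((⟨R, rfl⟩ | ⟨R, rfl⟩) | ⟨R, rfl⟩) P
  all_goals
    by_cases hP : P ∈ classSet W A R
  all_goals
    first
      | (simp only [classInd, Set.indicator_of_notMem hP]; exact A.zero_mem)
      | (simp only [classFst, Set.indicator_of_notMem hP]; exact A.zero_mem)
      | (simp only [classSnd, Set.indicator_of_notMem hP]; exact A.zero_mem)
      | (simp only [classInd, Set.indicator_of_mem hP]; exact A.one_mem)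
      | skip
  · simp only [classFst, Set.indicator_of_mem hP, coordFst]
    split_ifs with hR
    · exact ECLocal.mem_of_v_lt_one (kernel_coords hi ((kernelSub hP).mpr hR)).1
    · exact (xy_mem_of_not_inKernel (fun h => hR ((kernelSub hP).mp h))).1
  · simp only [classSnd, Set.indicator_of_mem hP, coordSnd]
    split_ifs with hR
    · exact ECLocal.mem_of_v_lt_one (kernel_coords hi ((kernelSub hP).mpr hR)).2.1
    · exact (xy_mem_of_not_inKernel (fun h => hR ((kernelSub hP).mp h))).2

lemma classGens_equivariant {n : ℕ} (hV : GoodAt A (curveQbar W)) :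
    ∀ φ ∈ classGens W A n, ∀ σ ∈ A.inertiaSubgroupIn ℚ, ∀ P, φ (σ • P) = σ (φ P) := by
  intro φ hφ σ hσ P
  have hiff := fun R => inertia_classSet hV hσ R P
  have hco := zCoord_smul σ (P : PointQbar W)
  have hcast : ((σ • P : Tors W n) : PointQbar W) = σ • (P : PointQbar W) := rfl
  rcases hφ with (⟨R, rfl⟩ | ⟨R, rfl⟩) | ⟨R, rfl⟩ <;> by_cases hP : P ∈ classSet W A R
  · simp only [classInd, Set.indicator_of_mem hP, Set.indicator_of_mem ((hiff R).mpr hP), map_one]
  · simp only [classInd, Set.indicator_of_notMem hP,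
      Set.indicator_of_notMem (mt (hiff R).mp hP), _root_.map_zero]
  · simp only [classFst, Set.indicator_of_mem hP, Set.indicator_of_mem ((hiff R).mpr hP), coordFst,
      hcast]
    split_ifs
    · exact hco.1
    · exact hco.2.2.1
  · simp only [classFst, Set.indicator_of_notMem hP,
      Set.indicator_of_notMem (mt (hiff R).mp hP), _root_.map_zero]
  · simp only [classSnd, Set.indicator_of_mem hP, Set.indicator_of_mem ((hiff R).mpr hP), coordSnd,
      hcast]
    split_ifs
    · exact hco.2.1
    · exact hco.2.2.2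
  · simp only [classSnd, Set.indicator_of_notMem hP,
      Set.indicator_of_notMem (mt (hiff R).mp hP), _root_.map_zero]

lemma classGens_separate {n : ℕ} (hV : GoodAt A (curveQbar W)) (P Q : Tors W n)
    (h : ∀ φ ∈ classGens W A n, φ P = φ Q) : P = Q := by
  have hi := hV.toIntegralAt
  have hPP : P ∈ classSet W A P := by
    show InKernel A ((P : PointQbar W) - (P : PointQbar W))
    rw [sub_self]; exact trivial
  have hQ : Q ∈ classSet W A P := by
    by_contra hQ
    have := h _ (Or.inl (Or.inl ⟨P, rfl⟩))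
    simp [classInd, Set.indicator_of_mem hPP, Set.indicator_of_notMem hQ] at this
  have h1 := h _ (Or.inl (Or.inr ⟨P, rfl⟩))
  have h2 := h _ (Or.inr ⟨P, rfl⟩)
  simp only [classFst, classSnd, Set.indicator_of_mem hPP, Set.indicator_of_mem hQ, coordFst,
    coordSnd] at h1 h2
  have hQP := kernelSub hQ
  apply Subtype.ext
  have key : ∀ P₀ Q₀ : PointQbar W, (InKernel A Q₀ ↔ InKernel A P₀) →
      (InKernel A P₀ → zCoord P₀ = zCoord Q₀ ∧ wCoord P₀ = wCoord Q₀) →
      (¬ InKernel A P₀ → xCoord P₀ = xCoord Q₀ ∧ yCoord P₀ = yCoord Q₀) → P₀ = Q₀ := by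
    intro P₀ Q₀ hiff hk ha
    match P₀, Q₀ with
    | .zero, .zero => rfl
    | .zero, .some x y hxy =>
      have hz := (hk trivial).1
      exact absurd hz.symm (ECLocal.zCoord_ne_zero hi (hiff.mpr trivial)
        (Affine.Point.some_ne_zero hxy))
    | .some x y hxy, .zero =>
      have hk' := hiff.mp trivial
      exact absurd (hk hk').1 (ECLocal.zCoord_ne_zero hi hk' (Affine.Point.some_ne_zero hxy))
    | .some x y hxy, .some x' y' hxy' =>
      by_cases hker : InKernel A (Affine.Point.some x y hxy : PointQbar W)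
      · obtain ⟨ez, ew⟩ := hk hker
        obtain ⟨hy, -⟩ := ECLocal.zw_of_not_mem hi hxy.1 hker
        obtain ⟨hy', -⟩ := ECLocal.zw_of_not_mem hi hxy'.1 (hiff.mpr hker)
        change -1 / y = -1 / y' at ew
        change -x / y = -x' / y' at ez
        field_simp at ew
        obtain rfl : y = y' := (neg_inj.mp ew).symm
        field_simp at ez
        obtain rfl : x = x' := neg_inj.mp ez
        rfl
      · obtain ⟨ex, ey⟩ := ha hker
        change x = x' at ex
        change y = y' at ey
        subst ex ey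
        rfl
  refine key _ _ hQP (fun hk => ?_) (fun hk => ?_)
  · rw [if_pos hk, if_pos hk] at h1 h2; exact ⟨h1, h2⟩
  · rw [if_neg hk, if_neg hk] at h1 h2; exact ⟨h1, h2⟩

/-- The pair of classes of `R₁` and `R₂`. -/
def pairSet {n : ℕ} (R : Tors W n × Tors W n) : Set (Tors W n × Tors W n) :=
  classSet W A R.1 ×ˢ classSet W A R.2

lemma pair_ind_mem {n : ℕ} (R : Tors W n × Tors W n) :
    (pairSet (A := A) R).indicator (fun _ => (1 : Qbar)) ∈
      genAlg A (prodGen (classGens W A n)) := by
  have e : (pairSet (A := A) R).indicator (fun _ => (1 : Qbar))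
      = (classInd W A R.1 ∘ Prod.fst) * (classInd W A R.2 ∘ Prod.snd) := by
    funext q
    by_cases h1 : q.1 ∈ classSet W A R.1 <;> by_cases h2 : q.2 ∈ classSet W A R.2 <;>
      simp [pairSet, classInd, Set.indicator, h1, h2]
  rw [e]
  exact mul_mem (Algebra.subset_adjoin (Or.inl ⟨_, Or.inl (Or.inl ⟨R.1, rfl⟩), rfl⟩))
    (Algebra.subset_adjoin (Or.inr ⟨_, Or.inl (Or.inl ⟨R.2, rfl⟩), rfl⟩))

/-- One projection minus its representative is a kernel family. -/
lemma kerIn_proj_sub {n : ℕ} [Finite (Tors W n)] (hV : GoodAt A (curveQbar W))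
    {S : Subalgebra A (Tors W n × Tors W n → Qbar)} (hval : ∀ f ∈ S, ∀ q, f q ∈ A)
    {Z : Set (Tors W n × Tors W n)} (hZ : Z.indicator (fun _ => (1 : Qbar)) ∈ S)
    (π : Tors W n × Tors W n → Tors W n) (R : Tors W n) (hπ : ∀ q ∈ Z, π q ∈ classSet W A R)
    (h1 : classFst W A R ∘ π ∈ S) (h2 : classSnd W A R ∘ π ∈ S) :
    KerIn S Z (fun q => (π q : PointQbar W) - (R : PointQbar W)) := by
  have hi := hV.toIntegralAt
  have hval1 : ∀ q ∈ Z, (classFst W A R ∘ π) q = coordFst W A (R : PointQbar W) (π q : PointQbar W)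
      ∧ (classSnd W A R ∘ π) q = coordSnd W A (R : PointQbar W) (π q : PointQbar W) :=
    fun q hq => by simp [classFst, classSnd, Set.indicator_of_mem (hπ q hq)]
  by_cases hR : InKernel A (R : PointQbar W)
  · have hproj : KerIn S Z (fun q => (π q : PointQbar W)) := by
      refine ⟨fun q hq => (kernelSub (hπ q hq)).mpr hR,
        mem_onSet_congr (mem_onSet_of_mem h1) fun q hq => ?_,
        mem_onSet_congr (mem_onSet_of_mem h2) fun q hq => ?_⟩
      · rw [(hval1 q hq).1, coordFst, if_pos hR]
      · rw [(hval1 q hq).2, coordSnd, if_pos hR]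
    exact (hproj.add hi hval hZ (KerIn.const hi (hR.neg hi))).congr fun q _ =>
      (sub_eq_add_neg _ _).symm
  · obtain ⟨xr, yr, hns, hReq, hxr⟩ : ∃ xr yr, ∃ hns : (curveQbar W).toAffine.Nonsingular xr yr,
        (R : PointQbar W) = Affine.Point.some xr yr hns ∧ xr ∈ A := by
      have key : ∀ Q : PointQbar W, ¬ InKernel A Q → ∃ xr yr,
          ∃ hns : (curveQbar W).toAffine.Nonsingular xr yr,
            Q = Affine.Point.some xr yr hns ∧ xr ∈ A := by
        intro Q hQ
        match Q, hQ with
        | .zero, hQ => exact absurd trivial hQ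
        | .some x y h, hQ => exact ⟨x, y, h, rfl, not_not.mp hQ⟩
      exact key _ hR
    simp only [hReq]
    refine KerIn.of_diff hi hval hZ hns hxr (ECLocal.nonsingRed_of_good hV _) (fun q hq => ?_)
      (mem_onSet_congr (mem_onSet_of_mem h1) fun q hq => ?_)
      (mem_onSet_congr (mem_onSet_of_mem h2) fun q hq => ?_)
    · have := hπ q hq
      simp only [classSet, Set.mem_ofPred_eq, hReq] at this
      exact this
    · rw [(hval1 q hq).1, coordFst, if_neg hR]
    · rw [(hval1 q hq).2, coordSnd, if_neg hR]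

/-- Comultiplication of the generators. -/
lemma classGens_comul {n : ℕ} [Finite (Tors W n)] (hV : GoodAt A (curveQbar W)) :
    ∀ φ ∈ classGens W A n,
      (fun q : Tors W n × Tors W n => φ (q.1 + q.2)) ∈ genAlg A (prodGen (classGens W A n)) := by
  intro φ hφ
  have hi := hV.toIntegralAt
  set S := genAlg A (prodGen (classGens W A n))
  have hval : ∀ f ∈ S, ∀ q, f q ∈ A := by
    intro f hf q
    refine adjoin_values_mem ?_ hf q
    rintro g (⟨ψ, hψ, rfl⟩ | ⟨ψ, hψ, rfl⟩) r
    · exact classGens_values hV ψ hψ _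
    · exact classGens_values hV ψ hψ _
  refine mem_of_cover (pairSet (A := A)) (fun q => ⟨q, ?_, ?_⟩) pair_ind_mem fun R => ?_
  · show InKernel A ((q.1 : PointQbar W) - (q.1 : PointQbar W))
    rw [sub_self]; exact trivial
  · show InKernel A ((q.2 : PointQbar W) - (q.2 : PointQbar W))
    rw [sub_self]; exact trivial
  set Z := pairSet (A := A) R
  have hZ : Z.indicator (fun _ => (1 : Qbar)) ∈ S := pair_ind_mem R
  have hu := kerIn_proj_sub hV hval hZ Prod.fst R.1 (fun q hq => hq.1)
    (Algebra.subset_adjoin (Or.inl ⟨_, Or.inl (Or.inr ⟨R.1, rfl⟩), rfl⟩))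
    (Algebra.subset_adjoin (Or.inl ⟨_, Or.inr ⟨R.1, rfl⟩, rfl⟩))
  have hv := kerIn_proj_sub hV hval hZ Prod.snd R.2 (fun q hq => hq.2)
    (Algebra.subset_adjoin (Or.inr ⟨_, Or.inl (Or.inr ⟨R.2, rfl⟩), rfl⟩))
    (Algebra.subset_adjoin (Or.inr ⟨_, Or.inr ⟨R.2, rfl⟩, rfl⟩))
  have huv := hu.add hi hval hZ hv
  set R₃ : Tors W n := R.1 + R.2 with hR₃
  have hsum : ∀ q : Tors W n × Tors W n, ((q.1 + q.2 : Tors W n) : PointQbar W)
      = (R₃ : PointQbar W) + (((q.1 : PointQbar W) - (R.1 : PointQbar W)) + ((q.2 : PointQbar W) - (R.2 : PointQbar W))) := by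
    intro q
    rw [hR₃, Submodule.coe_add, Submodule.coe_add]
    abel
  have hclass : ∀ q ∈ Z, (q.1 + q.2 : Tors W n) ∈ classSet W A R₃ := by
    intro q hq
    show InKernel A (((q.1 + q.2 : Tors W n) : PointQbar W) - (R₃ : PointQbar W))
    rw [hsum q, add_sub_cancel_left]
    exact huv.inKernel q hq
  -- coordinates of the sum
  have hcoords : ∀ T : Tors W n, R₃ ∈ classSet W A T →
      (fun q : Tors W n × Tors W n => coordFst W A (T : PointQbar W)
          ((q.1 + q.2 : Tors W n) : PointQbar W)) ∈ onSet S Z ∧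
      (fun q : Tors W n × Tors W n => coordSnd W A (T : PointQbar W)
          ((q.1 + q.2 : Tors W n) : PointQbar W)) ∈ onSet S Z := by
    intro T hT
    by_cases hTk : InKernel A (T : PointQbar W)
    · have hk := (KerIn.const hi ((kernelSub hT).mpr hTk)).add hi hval hZ huv
      constructor
      · simp only [coordFst, if_pos hTk, hsum]; exact hk.z_mem
      · simp only [coordSnd, if_pos hTk, hsum]; exact hk.w_mem
    · have hR3k : ¬ InKernel A (R₃ : PointQbar W) := fun h => hTk ((kernelSub hT).mp h)
      have key : ∀ Q : PointQbar W, ¬ InKernel A Q →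
          (fun q : Tors W n × Tors W n => xCoord (Q + (((q.1 : PointQbar W) - (R.1 : PointQbar W))
            + ((q.2 : PointQbar W) - (R.2 : PointQbar W))))) ∈ onSet S Z ∧
          (fun q : Tors W n × Tors W n => yCoord (Q + (((q.1 : PointQbar W) - (R.1 : PointQbar W))
            + ((q.2 : PointQbar W) - (R.2 : PointQbar W))))) ∈ onSet S Z := by
        intro Q hQ
        match Q, hQ with
        | .zero, hQ => exact absurd trivial hQ
        | .some x y h, hQ => exact translate_mem hi hval hZ huv h (not_not.mp hQ)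
      constructor
      · simp only [coordFst, if_neg hTk, hsum]; exact (key _ hR3k).1
      · simp only [coordSnd, if_neg hTk, hsum]; exact (key _ hR3k).2
  rcases hφ with (⟨T, rfl⟩ | ⟨T, rfl⟩) | ⟨T, rfl⟩ <;> by_cases hT : R₃ ∈ classSet W A T
  · refine mem_onSet_congr (const_mem_onSet A.one_mem) fun q hq => ?_
    rw [classInd, Set.indicator_of_mem ((classSet_iff_of_mem (hclass q hq)).mpr hT)]
  · refine mem_onSet_congr (const_mem_onSet A.zero_mem) fun q hq => ?_
    rw [classInd, Set.indicator_of_notMem (mt (classSet_iff_of_mem (hclass q hq)).mp hT)]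
  · refine mem_onSet_congr (hcoords T hT).1 fun q hq => ?_
    rw [classFst, Set.indicator_of_mem ((classSet_iff_of_mem (hclass q hq)).mpr hT)]
  · refine mem_onSet_congr (const_mem_onSet A.zero_mem) fun q hq => ?_
    rw [classFst, Set.indicator_of_notMem (mt (classSet_iff_of_mem (hclass q hq)).mp hT)]
  · refine mem_onSet_congr (hcoords T hT).2 fun q hq => ?_
    rw [classSnd, Set.indicator_of_mem ((classSet_iff_of_mem (hclass q hq)).mpr hT)]
  · refine mem_onSet_congr (const_mem_onSet A.zero_mem) fun q hq => ?_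
    rw [classSnd, Set.indicator_of_notMem (mt (classSet_iff_of_mem (hclass q hq)).mp hT)]

end Good

/-- Good reduction: `E[p ^ n]` is finite flat at `p`. -/
theorem hasFlatModelAt_tors_of_good (W : WeierstrassCurve ℤ) {p : ℕ} (hp : p.Prime)
    (hgood : ¬ (p : ℤ) ∣ W.Δ) (n : ℕ) :
    FFG.HasFlatModelAt p (fun σ (P : Tors W (p ^ n)) => σ • P) := by
  obtain ⟨A, hA⟩ := Galois.exists_liesOverPrime (L := Qbar) hp
  have hV := ECLocal.goodAt_intModel W hp hgood A hA
  have hΔ : (W.map (Int.castRingHom ℚ)).Δ ≠ 0 := by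
    rw [WeierstrassCurve.map_Δ, eq_intCast, Int.cast_ne_zero]
    exact fun h => hgood (h ▸ dvd_zero _)
  have hn0 : p ^ n ≠ 0 := pow_ne_zero _ hp.ne_zero
  have := ECTorsion.finite_torsionBy_qbar (W.map (Int.castRingHom ℚ)) hΔ hn0
  have halg : Algebra.IsAlgebraic ℚ Qbar := AlgebraicClosure.isAlgebraic ℚ
  obtain ⟨L, hL, hfix⟩ := ECTorsion.exists_finite_level (S := ℚ) (K := Qbar)
    (W := W.map (Int.castRingHom ℚ)) (ECTorsion.algebraMap_qbar_Δ_ne_zero _ hΔ)
    (n := p ^ n) (Nat.cast_ne_zero.mpr hn0)
  refine hasFlatModelAt_of_generators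
    ⟨L, hL, fun σ hσ => hfix σ ((IntermediateField.mem_fixingSubgroup_iff L σ).mp hσ)⟩ hA hp
    (Good.classGens W A (p ^ n)) (Good.classGens_values hV) (Good.classGens_equivariant hV)
    (fun P Q h => Good.classGens_separate hV P Q h) (Good.classGens_comul hV)

end Fermat.Agent.ECFormal
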