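import Fermat.Agent.ECLocal.Reduction

/-!
# The addition law on the kernel of reduction, as a formula in `z = -x/y`, `w = -1/y`

The formula has unit denominators and holds for all pairs of points of the kernel of reduction,
degenerate or not.
-/

set_option autoImplicit false

universe v

noncomputable section

namespace Fermat.Agent.ECFormal.Good

open WeierstrassCurve
open Fermat.Agent.ECLocal

variable {K : Type v} [Field K] {A : ValuationSubring K} {V : WeierstrassCurve K}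

/-- The coordinate `w = -1/y` at infinity. -/
def wCoord : V.toAffine.Point → K
  | .zero => 0
  | .some _ y _ => -1 / y

theorem wCoord_zero : wCoord (0 : V.toAffine.Point) = 0 := rfl

theorem wCoord_some {x y : K} (h : V.toAffine.Nonsingular x y) :
    wCoord (Affine.Point.some x y h) = -1 / y := rfl

/-- The cubic in the chart at infinity: `w = zwRHS z w`. -/
def zwRHS (V : WeierstrassCurve K) (z w : K) : K :=
  z ^ 3 + V.a₁ * z * w + V.a₂ * z ^ 2 * w + V.a₃ * w ^ 2 + V.a₄ * z * w ^ 2 + V.a₆ * w ^ 3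

/-- `w * unitDen = z ^ 3` on the curve. -/
def unitDen (V : WeierstrassCurve K) (z w : K) : K :=
  1 - (V.a₁ * z + V.a₂ * z ^ 2 + V.a₃ * w + V.a₄ * z * w + V.a₆ * w ^ 2)

/-- Denominator of the slope of a chord in the chart at infinity. -/
def chordH (V : WeierstrassCurve K) (z₁ w₁ w₂ : K) : K :=
  1 - (V.a₁ * z₁ + V.a₂ * z₁ ^ 2 + V.a₃ * (w₁ + w₂) + V.a₄ * z₁ * (w₁ + w₂)
    + V.a₆ * (w₁ ^ 2 + w₁ * w₂ + w₂ ^ 2))

/-- Numerator of the slope of a chord in the chart at infinity. -/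
def chordG (V : WeierstrassCurve K) (z₁ z₂ w₂ : K) : K :=
  z₁ ^ 2 + z₁ * z₂ + z₂ ^ 2 + V.a₁ * w₂ + V.a₂ * (z₁ + z₂) * w₂ + V.a₄ * w₂ ^ 2

/-- Slope of the chord. -/
def chordLam (V : WeierstrassCurve K) (z₁ w₁ z₂ w₂ : K) : K :=
  chordG V z₁ z₂ w₂ / chordH V z₁ w₁ w₂

/-- Intercept of the chord. -/
def chordNu (V : WeierstrassCurve K) (z₁ w₁ z₂ w₂ : K) : K :=
  w₁ - chordLam V z₁ w₁ z₂ w₂ * z₁

/-- Leading coefficient of the cubic cut out on a line. -/
def cubeLead (V : WeierstrassCurve K) (l : K) : K :=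
  1 + (V.a₂ * l + V.a₄ * l ^ 2 + V.a₆ * l ^ 3)

/-- Second coefficient of the cubic cut out on a line. -/
def cubeNext (V : WeierstrassCurve K) (l ν : K) : K :=
  V.a₁ * l + V.a₃ * l ^ 2 + V.a₂ * ν + 2 * V.a₄ * l * ν + 3 * V.a₆ * l ^ 2 * ν

/-- Denominator of negation. -/
def negDen (V : WeierstrassCurve K) (z w : K) : K := 1 - (V.a₁ * z + V.a₃ * w)

/-- `z` of the third point on the chord. -/
def thirdZ (V : WeierstrassCurve K) (z₁ w₁ z₂ w₂ : K) : K :=
  -cubeNext V (chordLam V z₁ w₁ z₂ w₂) (chordNu V z₁ w₁ z₂ w₂)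
    / cubeLead V (chordLam V z₁ w₁ z₂ w₂) - z₁ - z₂

/-- `w` of the third point on the chord. -/
def thirdW (V : WeierstrassCurve K) (z₁ w₁ z₂ w₂ : K) : K :=
  chordLam V z₁ w₁ z₂ w₂ * thirdZ V z₁ w₁ z₂ w₂ + chordNu V z₁ w₁ z₂ w₂

/-- `z` of a sum. -/
def sumZ (V : WeierstrassCurve K) (z₁ w₁ z₂ w₂ : K) : K :=
  -thirdZ V z₁ w₁ z₂ w₂ / negDen V (thirdZ V z₁ w₁ z₂ w₂) (thirdW V z₁ w₁ z₂ w₂)

/-- `w` of a sum. -/
def sumW (V : WeierstrassCurve K) (z₁ w₁ z₂ w₂ : K) : K :=
  -thirdW V z₁ w₁ z₂ w₂ / negDen V (thirdZ V z₁ w₁ z₂ w₂) (thirdW V z₁ w₁ z₂ w₂)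

/-! ### Smallness -/

theorem small_add {x y : K} (hx : A.valuation x < 1) (hy : A.valuation y < 1) :
    A.valuation (x + y) < 1 := A.valuation.map_add_lt hx hy

theorem small_sub {x y : K} (hx : A.valuation x < 1) (hy : A.valuation y < 1) :
    A.valuation (x - y) < 1 := A.valuation.map_sub_lt hx hy

theorem small_neg {x : K} (hx : A.valuation x < 1) : A.valuation (-x) < 1 := by
  rwa [Valuation.map_neg]

theorem small_mul {x y : K} (hx : A.valuation x < 1) (hy : y ∈ A) :
    A.valuation (x * y) < 1 := v_mul_lt_one hx (v_le_one hy)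

theorem small_mul' {x y : K} (hx : x ∈ A) (hy : A.valuation y < 1) :
    A.valuation (x * y) < 1 := v_mul_lt_one' (v_le_one hx) hy

theorem small_pow {x : K} (hx : A.valuation x < 1) {n : ℕ} (hn : n ≠ 0) :
    A.valuation (x ^ n) < 1 := by
  rw [map_pow]; exact pow_lt_one₀ zero_le hx hn

theorem unit_one_sub {x : K} (hx : A.valuation x < 1) : A.valuation (1 - x) = 1 :=
  A.valuation.map_one_sub_of_lt hx

theorem unit_one_add {x : K} (hx : A.valuation x < 1) : A.valuation (1 + x) = 1 :=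
  A.valuation.map_one_add_of_lt hx

theorem small_div_unit {x u : K} (hx : A.valuation x < 1) (hu : A.valuation u = 1) :
    A.valuation (x / u) < 1 := by
  rwa [map_div₀, hu, div_one]

/-- The coordinates of a point of the kernel of reduction. -/
theorem kernel_coords (hV : IntegralAt A V) {P : V.toAffine.Point} (hP : InKernel A P) :
    A.valuation (zCoord P) < 1 ∧ A.valuation (wCoord P) < 1 ∧
      wCoord P = zwRHS V (zCoord P) (wCoord P) := by
  match P, hP with
  | .zero, _ =>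
    rw [← Affine.Point.zero_def, zCoord_zero, wCoord_zero, map_zero]
    exact ⟨zero_lt_one, zero_lt_one, by simp [zwRHS]⟩
  | .some x y h, hP =>
    obtain ⟨-, hz, -, hw, he⟩ := zw_of_not_mem hV h.1 hP
    rw [zCoord_some, wCoord_some]
    refine ⟨hz, ?_, he⟩
    rw [hw, ← map_pow]
    exact small_pow hz three_ne_zero

section Bounds

variable (hV : IntegralAt A V) {z₁ z₂ w₁ w₂ : K}
  (hz₁ : A.valuation z₁ < 1) (hw₁ : A.valuation w₁ < 1)
  (hz₂ : A.valuation z₂ < 1) (hw₂ : A.valuation w₂ < 1)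

include hV hz₁ hw₁

theorem valuation_negDen : A.valuation (negDen V z₁ w₁) = 1 :=
  unit_one_sub (small_add (small_mul' hV.a₁_mem hz₁) (small_mul' hV.a₃_mem hw₁))

theorem valuation_unitDen : A.valuation (unitDen V z₁ w₁) = 1 := by
  have hzA := mem_of_v_lt_one hz₁
  refine unit_one_sub (small_add (small_add (small_add (small_add
    (small_mul' hV.a₁_mem hz₁) (small_mul' hV.a₂_mem (small_pow hz₁ two_ne_zero)))
    (small_mul' hV.a₃_mem hw₁)) (small_mul' (A.mul_mem _ _ hV.a₄_mem hzA) hw₁))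
    (small_mul' hV.a₆_mem (small_pow hw₁ two_ne_zero)))

include hw₂

theorem valuation_chordH : A.valuation (chordH V z₁ w₁ w₂) = 1 := by
  have hzA := mem_of_v_lt_one hz₁
  refine unit_one_sub (small_add (small_add (small_add (small_add
    (small_mul' hV.a₁_mem hz₁) (small_mul' hV.a₂_mem (small_pow hz₁ two_ne_zero)))
    (small_mul' hV.a₃_mem (small_add hw₁ hw₂)))
    (small_mul' (A.mul_mem _ _ hV.a₄_mem hzA) (small_add hw₁ hw₂)))
    (small_mul' hV.a₆_mem (small_add (small_add (small_pow hw₁ two_ne_zero)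
      (small_mul hw₁ (mem_of_v_lt_one hw₂))) (small_pow hw₂ two_ne_zero))))

include hz₂

theorem small_chordLam : A.valuation (chordLam V z₁ w₁ z₂ w₂) < 1 := by
  refine small_div_unit ?_ (valuation_chordH hV hz₁ hw₁ hw₂)
  exact small_add (small_add (small_add (small_add (small_add (small_pow hz₁ two_ne_zero)
    (small_mul hz₁ (mem_of_v_lt_one hz₂))) (small_pow hz₂ two_ne_zero))
    (small_mul' hV.a₁_mem hw₂))
    (small_mul' (A.mul_mem _ _ hV.a₂_mem (mem_of_v_lt_one (small_add hz₁ hz₂))) hw₂))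
    (small_mul' hV.a₄_mem (small_pow hw₂ two_ne_zero))

theorem small_chordNu : A.valuation (chordNu V z₁ w₁ z₂ w₂) < 1 :=
  small_sub hw₁ (small_mul (small_chordLam hV hz₁ hw₁ hz₂ hw₂) (mem_of_v_lt_one hz₁))

theorem valuation_cubeLead : A.valuation (cubeLead V (chordLam V z₁ w₁ z₂ w₂)) = 1 := by
  have hl := small_chordLam hV hz₁ hw₁ hz₂ hw₂
  exact unit_one_add (small_add (small_add (small_mul' hV.a₂_mem hl)
    (small_mul' hV.a₄_mem (small_pow hl two_ne_zero)))
    (small_mul' hV.a₆_mem (small_pow hl three_ne_zero)))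

theorem small_thirdZ : A.valuation (thirdZ V z₁ w₁ z₂ w₂) < 1 := by
  have hl := small_chordLam hV hz₁ hw₁ hz₂ hw₂
  have hn := small_chordNu hV hz₁ hw₁ hz₂ hw₂
  have hlA := mem_of_v_lt_one hl
  refine small_sub (small_sub (small_div_unit (small_neg ?_)
    (valuation_cubeLead hV hz₁ hw₁ hz₂ hw₂)) hz₁) hz₂
  exact small_add (small_add (small_add (small_add (small_mul' hV.a₁_mem hl)
    (small_mul' hV.a₃_mem (small_pow hl two_ne_zero))) (small_mul' hV.a₂_mem hn))
    (small_mul' (A.mul_mem _ _ (A.mul_mem _ _ (ECLocal.ofNat_mem A 2) hV.a₄_mem) hlA) hn))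
    (small_mul' (A.mul_mem _ _ (A.mul_mem _ _ (ECLocal.ofNat_mem A 3) hV.a₆_mem) (pow_mem hlA 2)) hn)

theorem small_thirdW : A.valuation (thirdW V z₁ w₁ z₂ w₂) < 1 :=
  small_add (small_mul' (mem_of_v_lt_one (small_chordLam hV hz₁ hw₁ hz₂ hw₂))
    (small_thirdZ hV hz₁ hw₁ hz₂ hw₂)) (small_chordNu hV hz₁ hw₁ hz₂ hw₂)

theorem valuation_negDen_third :
    A.valuation (negDen V (thirdZ V z₁ w₁ z₂ w₂) (thirdW V z₁ w₁ z₂ w₂)) = 1 :=
  valuation_negDen hV (small_thirdZ hV hz₁ hw₁ hz₂ hw₂) (small_thirdW hV hz₁ hw₁ hz₂ hw₂)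

end Bounds

/-! ### Points through the origin -/

/-- On a line through the origin, a point of the cubic and the opposite point are the two
nonzero roots. -/
theorem cubeNext_of_line_through_zero {z w l : K} (hz : z ≠ 0) (hw : w = l * z)
    (he : w = zwRHS V z w) (hD : negDen V z w ≠ 0) (hc : cubeLead V l ≠ 0) :
    -cubeNext V l 0 / cubeLead V l - z = -z / negDen V z w := by
  subst hw
  have h2 : cubeLead V l * z ^ 2 + cubeNext V l 0 * z - l = 0 := by
    have : z * (cubeLead V l * z ^ 2 + cubeNext V l 0 * z - l) = 0 := by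
      simp only [zwRHS] at he
      simp only [cubeLead, cubeNext]
      linear_combination -he
    exact (mul_eq_zero.mp this).resolve_left hz
  rw [div_sub' hc, div_eq_div_iff hc hD]
  simp only [negDen, cubeNext, cubeLead] at h2 ⊢
  linear_combination (V.a₁ + V.a₃ * l) * h2

/-- Negation in the chart at infinity. -/
theorem neg_coords {x y : K} (h : V.toAffine.Nonsingular x y) (hy : y ≠ 0) :
    zCoord (-(Affine.Point.some x y h)) = -(-x / y) / negDen V (-x / y) (-1 / y) ∧
      wCoord (-(Affine.Point.some x y h)) = -(-1 / y) / negDen V (-x / y) (-1 / y) := by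
  rw [Affine.Point.neg_some, zCoord_some, wCoord_some]
  have hd : negDen V (-x / y) (-1 / y) = -V.toAffine.negY x y / y := by
    rw [negDen, Affine.negY]; field_simp; ring
  rw [hd]
  constructor <;> field_simp

/-- The line through two points of the kernel. -/
theorem chord_eq [DecidableEq K] (hV : IntegralAt A V) {x₁ y₁ x₂ y₂ : K}
    (h₁ : V.toAffine.Equation x₁ y₁) (h₂ : V.toAffine.Equation x₂ y₂)
    (hx₁ : x₁ ∉ A) (hx₂ : x₂ ∉ A) (hxy : ¬(x₁ = x₂ ∧ y₁ = V.toAffine.negY x₂ y₂)) :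
    chordNu V (-x₁ / y₁) (-1 / y₁) (-x₂ / y₂) (-1 / y₂) ≠ 0 ∧
      V.toAffine.slope x₁ x₂ y₁ y₂ = chordLam V (-x₁ / y₁) (-1 / y₁) (-x₂ / y₂) (-1 / y₂)
        / chordNu V (-x₁ / y₁) (-1 / y₁) (-x₂ / y₂) (-1 / y₂) := by
  obtain ⟨hy₁, hz₁, -, hw₁, he₁⟩ := zw_of_not_mem hV h₁ hx₁
  obtain ⟨hy₂, hz₂, -, hw₂, he₂⟩ := zw_of_not_mem hV h₂ hx₂
  have hw₁s : A.valuation (-1 / y₁) < 1 := by
    rw [hw₁, ← map_pow]; exact small_pow hz₁ three_ne_zero
  have hw₂s : A.valuation (-1 / y₂) < 1 := by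
    rw [hw₂, ← map_pow]; exact small_pow hz₂ three_ne_zero
  have hH := valuation_chordH hV hz₁ hw₁s hw₂s
  have hxv₁ : x₁ = (-x₁ / y₁) / (-1 / y₁) := by field_simp
  have hxv₂ : x₂ = (-x₂ / y₂) / (-1 / y₂) := by field_simp
  have hyv₁ : y₁ = -1 / (-1 / y₁) := by field_simp
  have hyv₂ : y₂ = -1 / (-1 / y₂) := by field_simp
  have hw₁0 : (-1 / y₁) ≠ 0 := div_ne_zero (neg_ne_zero.2 one_ne_zero) hy₁
  have hw₂0 : (-1 / y₂) ≠ 0 := div_ne_zero (neg_ne_zero.2 one_ne_zero) hy₂
  clear hw₁ hw₂ hw₁s hw₂s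
  generalize hz₁d : (-x₁ / y₁) = z₁ at *
  generalize hz₂d : (-x₂ / y₂) = z₂ at *
  generalize hw₁d : (-1 / y₁) = w₁ at *
  generalize hw₂d : (-1 / y₂) = w₂ at *
  have hH0 := ne_zero_of_v_eq_one hH
  have hid : (w₂ - w₁) * chordH V z₁ w₁ w₂ = (z₂ - z₁) * chordG V z₁ z₂ w₂ :=
    zw_sub_identity he₁ he₂
  simp only [chordNu, chordLam]
  by_cases hx : x₁ = x₂
  · have hy : y₁ ≠ V.toAffine.negY x₂ y₂ := fun h => hxy ⟨hx, h⟩
    have hyy := Affine.Y_eq_of_Y_ne h₁ h₂ hx hy
    have hzz : z₁ = z₂ := by rw [← hz₁d, ← hz₂d, hx, hyy]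
    have hww : w₁ = w₂ := by rw [← hw₁d, ← hw₂d, hyy]
    subst hzz hww
    rw [Affine.slope_of_Y_ne hx hy]
    have hψ : y₁ - V.toAffine.negY x₁ y₁ = (-2 + V.a₁ * z₁ + V.a₃ * w₁) / w₁ := by
      rw [Affine.negY, hyv₁, hxv₁]; field_simp; ring
    have hN : 3 * x₁ ^ 2 + 2 * V.a₂ * x₁ + V.a₄ - V.a₁ * y₁
        = chordG V z₁ z₁ w₁ / w₁ ^ 2 := by
      rw [hyv₁, hxv₁, chordG]; field_simp; ring
    have hrel : chordH V z₁ w₁ w₁ * w₁
        = chordG V z₁ z₁ w₁ * z₁ + (-2 + V.a₁ * z₁ + V.a₃ * w₁) * w₁ := by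
      rw [chordH, chordG]; linear_combination 3 * he₁
    have hψ0 : (-2 + V.a₁ * z₁ + V.a₃ * w₁) ≠ 0 := by
      intro h0
      refine hy ?_
      have : y₁ - V.toAffine.negY x₁ y₁ = 0 := by rw [hψ, h0, zero_div]
      rw [← hx, ← hyy]
      exact sub_eq_zero.1 this
    have hνval : w₁ - chordG V z₁ z₁ w₁ / chordH V z₁ w₁ w₁ * z₁
        = (-2 + V.a₁ * z₁ + V.a₃ * w₁) * w₁ / chordH V z₁ w₁ w₁ := by
      field_simp
      linear_combination hrel
    refine ⟨?_, ?_⟩
    · rw [hνval]; exact div_ne_zero (mul_ne_zero hψ0 hw₁0) hH0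
    · rw [hψ, hN, hνval]; field_simp
  · have hne : z₁ ≠ z₂ := by
      intro hzz
      have : (w₂ - w₁) * chordH V z₁ w₁ w₂ = 0 := by rw [hid, hzz]; ring
      have hww : w₁ = w₂ := (sub_eq_zero.1 ((mul_eq_zero.1 this).resolve_right hH0)).symm
      exact hx (by rw [hxv₁, hxv₂, hzz, hww])
    generalize hlam : chordG V z₁ z₂ w₂ / chordH V z₁ w₁ w₂ = lam
    have hl₂ : w₂ = lam * z₂ + (w₁ - lam * z₁) := by
      rw [← hlam]
      field_simp
      linear_combination hid
    have hν0 : w₁ - lam * z₁ ≠ 0 := by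
      intro h0
      rw [h0, add_zero] at hl₂
      rw [sub_eq_zero] at h0
      apply hx
      have hl0 : lam ≠ 0 := fun hh => hw₁0 (by rw [h0, hh, zero_mul])
      have hz₁ne : z₁ ≠ 0 := fun hh => hw₁0 (by rw [h0, hh, mul_zero])
      have hz₂ne : z₂ ≠ 0 := fun hh => hw₂0 (by rw [hl₂, hh, mul_zero])
      rw [hxv₁, hxv₂, h0, hl₂]
      field_simp
    refine ⟨hν0, ?_⟩
    rw [Affine.slope_of_X_ne hx, div_eq_div_iff (sub_ne_zero.2 hx) hν0, hxv₁, hxv₂, hyv₁, hyv₂]
    field_simp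
    linear_combination -w₁ * hl₂

/-- The addition law on the kernel of reduction. -/
theorem kernel_law [DecidableEq K] (hV : IntegralAt A V) {P Q : V.toAffine.Point}
    (hP : InKernel A P) (hQ : InKernel A Q) :
    zCoord (P + Q) = sumZ V (zCoord P) (wCoord P) (zCoord Q) (wCoord Q) ∧
      wCoord (P + Q) = sumW V (zCoord P) (wCoord P) (zCoord Q) (wCoord Q) := by
  match P, Q, hP, hQ with
  | .zero, .zero, _, _ =>
    simp [← Affine.Point.zero_def, zCoord_zero, wCoord_zero, sumZ, sumW, thirdZ, thirdW, chordNu,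
      chordLam, chordG, cubeNext]
  | .zero, .some x y h, _, hQ =>
    obtain ⟨hy, -, -, -, -⟩ := zw_of_not_mem hV h.1 hQ
    obtain ⟨hz, hw, he⟩ := kernel_coords hV (P := Affine.Point.some x y h) hQ
    rw [← Affine.Point.zero_def, zero_add, zCoord_zero, wCoord_zero]
    simp only [zCoord_some, wCoord_some] at hz hw he ⊢
    have hz0 : -x / y ≠ 0 := fun h0 => by
      rw [h0] at he
      have h1 := (zw_of_not_mem hV h.1 hQ).2.2.1
      rw [h0, map_zero] at h1
      exact lt_irrefl _ h1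
    generalize hzd : -x / y = z at *
    generalize hwd : -1 / y = w at *
    have h0v : A.valuation (0 : K) < 1 := by rw [map_zero]; exact zero_lt_one
    have hH := ne_zero_of_v_eq_one (valuation_chordH hV h0v h0v hw)
    have hL := small_chordLam hV h0v h0v hz hw
    have hl : w = chordLam V 0 0 z w * z := by
      rw [chordLam, eq_comm, div_mul_eq_mul_div, div_eq_iff hH]
      simp only [chordG, chordH, zwRHS] at he ⊢
      linear_combination -he
    have hν : chordNu V 0 0 z w = 0 := by simp [chordNu]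
    have hc := valuation_cubeLead hV h0v h0v hz hw
    have key := cubeNext_of_line_through_zero hz0 hl he
      (ne_zero_of_v_eq_one (valuation_negDen hV hz hw)) (ne_zero_of_v_eq_one hc)
    have hthird : thirdZ V 0 0 z w = -z / negDen V z w := by
      rw [thirdZ, hν, sub_zero]; exact key
    have hthirdW : thirdW V 0 0 z w = -w / negDen V z w := by
      rw [thirdW, hν, hthird, add_zero, mul_div_assoc', mul_neg, ← hl]
    have hD := ne_zero_of_v_eq_one (valuation_negDen hV hz hw)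
    have hD3 : negDen V (-z / negDen V z w) (-w / negDen V z w) = 1 / negDen V z w := by
      simp only [negDen] at hD ⊢
      field_simp
      ring
    rw [sumZ, sumW, hthird, hthirdW, hD3]
    constructor <;> field_simp
  | .some x y h, .zero, hP, _ =>
    obtain ⟨hy, -, hz0', -, -⟩ := zw_of_not_mem hV h.1 hP
    obtain ⟨hz, hw, he⟩ := kernel_coords hV (P := Affine.Point.some x y h) hP
    rw [← Affine.Point.zero_def, add_zero, zCoord_zero, wCoord_zero]
    simp only [zCoord_some, wCoord_some] at hz hw he ⊢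
    have hz0 : -x / y ≠ 0 := fun h0 => by
      rw [h0, map_zero] at hz0'; exact lt_irrefl _ hz0'
    generalize hzd : -x / y = z at *
    generalize hwd : -1 / y = w at *
    have h0v : A.valuation (0 : K) < 1 := by rw [map_zero]; exact zero_lt_one
    have hH := ne_zero_of_v_eq_one (valuation_chordH hV hz hw h0v)
    have hl : w = chordLam V z w 0 0 * z := by
      rw [chordLam, eq_comm, div_mul_eq_mul_div, div_eq_iff hH]
      simp only [chordG, chordH, zwRHS] at he ⊢
      linear_combination -he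
    have hν : chordNu V z w 0 0 = 0 := by rw [chordNu, ← hl, sub_self]
    have hc := valuation_cubeLead hV hz hw h0v h0v
    have key := cubeNext_of_line_through_zero hz0 hl he
      (ne_zero_of_v_eq_one (valuation_negDen hV hz hw)) (ne_zero_of_v_eq_one hc)
    have hthird : thirdZ V z w 0 0 = -z / negDen V z w := by
      rw [thirdZ, hν, sub_zero]; exact key
    have hthirdW : thirdW V z w 0 0 = -w / negDen V z w := by
      rw [thirdW, hν, hthird, add_zero, mul_div_assoc', mul_neg, ← hl]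
    have hD := ne_zero_of_v_eq_one (valuation_negDen hV hz hw)
    have hD3 : negDen V (-z / negDen V z w) (-w / negDen V z w) = 1 / negDen V z w := by
      simp only [negDen] at hD ⊢
      field_simp
      ring
    rw [sumZ, sumW, hthird, hthirdW, hD3]
    constructor <;> field_simp
  | .some x₁ y₁ h₁, .some x₂ y₂ h₂, hP, hQ =>
    rw [inKernel_some_iff] at hP hQ
    obtain ⟨hy₁, -, hz₁0, -, -⟩ := zw_of_not_mem hV h₁.1 hP
    obtain ⟨hy₂, -, -, -, -⟩ := zw_of_not_mem hV h₂.1 hQ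
    obtain ⟨hz₁, hw₁, he₁⟩ := kernel_coords hV (P := Affine.Point.some x₁ y₁ h₁) hP
    obtain ⟨hz₂, hw₂, he₂⟩ := kernel_coords hV (P := Affine.Point.some x₂ y₂ h₂) hQ
    simp only [zCoord_some, wCoord_some] at hz₁ hw₁ he₁ hz₂ hw₂ he₂ ⊢
    by_cases hxy : x₁ = x₂ ∧ y₁ = V.toAffine.negY x₂ y₂
    · rw [Affine.Point.add_of_Y_eq hxy.1 hxy.2, zCoord_zero, wCoord_zero]
      -- the second point is the opposite of the first
      have hneg : (-(Affine.Point.some x₁ y₁ h₁) : V.toAffine.Point)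
          = Affine.Point.some x₂ y₂ h₂ := by
        rw [Affine.Point.neg_some]
        simp only [Affine.Point.some.injEq]
        exact ⟨hxy.1, by rw [hxy.1, hxy.2, Affine.negY_negY]⟩
      obtain ⟨hnz, hnw⟩ := neg_coords h₁ hy₁
      rw [hneg, zCoord_some] at hnz
      rw [hneg, wCoord_some] at hnw
      have hz0 : -x₁ / y₁ ≠ 0 := fun h0 => by
        rw [h0, map_zero] at hz₁0; exact lt_irrefl _ hz₁0
      generalize hzd : -x₁ / y₁ = z at *
      generalize hwd : -1 / y₁ = w at *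
      generalize -x₂ / y₂ = z₂ at *
      generalize -1 / y₂ = w₂ at *
      have hH := ne_zero_of_v_eq_one (valuation_chordH hV hz₁ hw₁ hw₂)
      have hD := ne_zero_of_v_eq_one (valuation_negDen hV hz₁ hw₁)
      have hν : chordNu V z w z₂ w₂ = 0 := by
        have hid : (w₂ - w) * chordH V z w w₂ = (z₂ - z) * chordG V z z₂ w₂ :=
          zw_sub_identity he₁ he₂
        by_cases hd2 : 1 + negDen V z w = 0
        · have e1 : z₂ = z := by
            rw [hnz, show negDen V z w = -1 from eq_neg_of_add_eq_zero_right hd2]; ring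
          have e2 : w₂ = w := by
            rw [hnw, show negDen V z w = -1 from eq_neg_of_add_eq_zero_right hd2]; ring
          subst e1 e2
          rw [chordNu, chordLam, div_mul_eq_mul_div, sub_div' hH, div_eq_zero_iff]
          left
          simp only [zwRHS] at he₁
          simp only [negDen] at hd2
          simp only [chordH, chordG]
          linear_combination 3 * he₁ - w₂ * hd2
        · have hfac : w - chordLam V z w z₂ w₂ * z = 0 := by
            have hmul : (w - chordLam V z w z₂ w₂ * z) * (1 + negDen V z w) = 0 := by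
              have : (w₂ - w) = chordLam V z w z₂ w₂ * (z₂ - z) := by
                rw [chordLam, div_mul_eq_mul_div, eq_div_iff hH, mul_comm _ (z₂ - z)]
                exact hid
              generalize chordLam V z w z₂ w₂ = lam at this ⊢
              rw [hnz, hnw] at this
              field_simp at this
              linear_combination -this
            exact (mul_eq_zero.mp hmul).resolve_right hd2
          exact hfac
      have hl : w = chordLam V z w z₂ w₂ * z := by
        have := hν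
        rw [chordNu, sub_eq_zero] at this
        exact this
      have key := cubeNext_of_line_through_zero hz0 hl he₁ hD
        (ne_zero_of_v_eq_one (valuation_cubeLead hV hz₁ hw₁ hz₂ hw₂))
      have hthird : thirdZ V z w z₂ w₂ = 0 := by
        rw [thirdZ, hν, key, hnz]; ring
      simp [sumZ, sumW, thirdW, hν, hthird]
    · obtain ⟨hν0, hl⟩ := chord_eq hV h₁.1 h₂.1 hP hQ hxy
      obtain ⟨e1, e2, e3, hy2, hy3⟩ := chord_vieta h₁.1 h₂.1 hxy rfl rfl rfl
      rw [Affine.Point.add_some hxy, zCoord_some, wCoord_some, Affine.addY]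
      have hA3 := valuation_cubeLead hV hz₁ hw₁ hz₂ hw₂
      have hD3 := valuation_negDen_third hV hz₁ hw₁ hz₂ hw₂
      simp only [sumZ, sumW, thirdW, thirdZ] at hD3 ⊢
      have hc : y₁ - V.toAffine.slope x₁ x₂ y₁ y₂ * x₁
          = -1 / chordNu V (-x₁ / y₁) (-1 / y₁) (-x₂ / y₂) (-1 / y₂) := by
        rw [hl]
        have := hν0
        simp only [chordNu] at this ⊢
        generalize chordLam V (-x₁ / y₁) (-1 / y₁) (-x₂ / y₂) (-1 / y₂) = lam at this ⊢
        rw [div_mul_eq_mul_div, sub_eq_iff_eq_add, ← add_div, eq_div_iff this]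
        field_simp
        ring
      generalize hlamd : chordLam V (-x₁ / y₁) (-1 / y₁) (-x₂ / y₂) (-1 / y₂) = lam at *
      generalize hνd : chordNu V (-x₁ / y₁) (-1 / y₁) (-x₂ / y₂) (-1 / y₂) = ν at *
      generalize hld : V.toAffine.slope x₁ x₂ y₁ y₂ = ℓ at *
      generalize hx3d : V.toAffine.addX x₁ x₂ ℓ = x₃ at *
      generalize hy3d : V.toAffine.negAddY x₁ x₂ y₁ ℓ = y₃ at *
      generalize hcd : y₁ - ℓ * x₁ = c at *
      have hy₁' : y₁ = ℓ * x₁ + c := by rw [← hcd]; ring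
      have hA30 := ne_zero_of_v_eq_one hA3
      have hprod : y₁ * y₂ * y₃ * (-ν) ^ 3 = cubeLead V lam := by
        have hl' : ℓ * (-ν) = -lam := by rw [hl]; field_simp
        have hc' : c * (-ν) = 1 := by rw [hc]; field_simp
        have : y₁ * y₂ * y₃
            = c ^ 3 - V.a₂ * ℓ * c ^ 2 + V.a₄ * ℓ ^ 2 * c - V.a₆ * ℓ ^ 3 := by
          rw [hy₁', hy2, hy3]
          linear_combination c ^ 2 * ℓ * e1 + c * ℓ ^ 2 * e2 + ℓ ^ 3 * e3
        rw [this, cubeLead]
        rw [show (c ^ 3 - V.a₂ * ℓ * c ^ 2 + V.a₄ * ℓ ^ 2 * c - V.a₆ * ℓ ^ 3) * (-ν) ^ 3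
          = (c * (-ν)) ^ 3 - V.a₂ * (ℓ * (-ν)) * (c * (-ν)) ^ 2
            + V.a₄ * (ℓ * (-ν)) ^ 2 * (c * (-ν)) - V.a₆ * (ℓ * (-ν)) ^ 3 by ring, hl', hc']
        ring
      have hy₃ : y₃ ≠ 0 := fun h => hA30 (by rw [← hprod, h]; ring)
      have hsum : (-x₁ / y₁ + -x₂ / y₂ + -x₃ / y₃) * cubeLead V lam = -cubeNext V lam ν := by
        rw [← hprod]
        have hnum : x₁ * y₂ * y₃ + x₂ * y₁ * y₃ + x₃ * y₁ * y₂
            = 3 * ℓ ^ 2 * (c ^ 2 + V.a₃ * c - V.a₆)
              - 2 * ℓ * c * (2 * ℓ * c + V.a₁ * c + V.a₃ * ℓ - V.a₄)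
              + c ^ 2 * (ℓ ^ 2 + V.a₁ * ℓ - V.a₂) := by
          rw [hy₁', hy2, hy3]
          linear_combination c ^ 2 * e1 + 2 * ℓ * c * e2 + 3 * ℓ ^ 2 * e3
        have hm : (-x₁ / y₁ + -x₂ / y₂ + -x₃ / y₃) * (y₁ * y₂ * y₃ * (-ν) ^ 3)
            = -(x₁ * y₂ * y₃ + x₂ * y₁ * y₃ + x₃ * y₁ * y₂) * (-ν) ^ 3 := by
          field_simp
          ring
        rw [hm, hnum, hl, hc, cubeNext]
        field_simp
        ring
      have hz3 : -cubeNext V lam ν / cubeLead V lam - -x₁ / y₁ - -x₂ / y₂ = -x₃ / y₃ := by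
        rw [← hsum, mul_div_cancel_right₀ _ hA30]; ring
      have hw3 : lam * (-x₃ / y₃) + ν = -1 / y₃ := by
        rw [hl, hc] at hy3
        field_simp at hy3 ⊢
        linear_combination hy3
      rw [hz3, hw3] at hD3 ⊢
      have hd : negDen V (-x₃ / y₃) (-1 / y₃) = -V.toAffine.negY x₃ y₃ / y₃ := by
        rw [negDen, Affine.negY]; field_simp; ring
      rw [hd]
      constructor <;> field_simp

end Fermat.Agent.ECFormal.Good
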