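import Fermat.Agent.ECFormal.InertiaFixed
import Fermat.Agent.S13.Tame
import Mathlib.NumberTheory.LegendreSymbol.AddCharacter

/-!
# Lagrange resolvents of a wild family with the smallest break

`X j` (`j : ZMod p`) are permuted by inertia through `j ↦ c + b j`, `b` the cyclotomic character,
and the distances `v (X j - X 0)` are those of a family `Z j` permuted through `j ↦ b j`.
Then a resolvent of the `X j`, scaled by a power of `p`, gives a unit `η` with `η ^ p` fixed by
inertia and `σ η = ζ ^ c η`.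
-/

set_option autoImplicit false

noncomputable section

namespace Fermat.Agent.ECFormal.Good

open Fermat.Agent.Galois (Qbar GalQ)

variable {p : ℕ} {A : ValuationSubring Qbar}

/-- `σ` acts on the two families and on `ζ` with the parameters `b`, `c`. -/
structure ActsBy (ζ : Qbar) (X Z : ZMod p → Qbar) (σ : GalQ) (b c : ZMod p) : Prop where
  unit : b ≠ 0
  zeta : σ ζ = ζ ^ b.val
  move : ∀ j, σ (X j) = X (c + b * j)
  scale : ∀ j, σ (Z j) = Z (b * j)

/-- The unit resolvent. -/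
theorem exists_unit_resolvent [Fact p.Prime] (hA : A.LiesOverPrime p) {ζ : Qbar}
    (hζ : IsPrimitiveRoot ζ p) {X Z : ZMod p → Qbar}
    (hact : ∀ σ ∈ A.inertiaSubgroupIn ℚ, ∃ b c, ActsBy ζ X Z σ b c)
    (hZ : ∀ j, j ≠ 0 → Z j ≠ 0)
    (hdist : ∀ j, j ≠ 0 → A.valuation (X j - X 0) = A.valuation (Z j)) :
    ∃ η : Qbar, A.valuation η = 1 ∧ ∀ σ ∈ A.inertiaSubgroupIn ℚ, ∀ b c,
      ActsBy ζ X Z σ b c → σ (η ^ p) = η ^ p ∧ σ η = ζ ^ c.val * η := by
  classical
  have hp : p.Prime := Fact.out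
  have := NeZero.mk hp.ne_zero
  have hp0 : (p : Qbar) ≠ 0 := Nat.cast_ne_zero.mpr hp.ne_zero
  set π := A.valuation (p : Qbar) with hπ
  have hπ0 : 0 < π := zero_lt_iff.mpr (valuation_natPrime_ne_zero hp A)
  have hπ1 : π < 1 := valuation_natPrime_lt_one hA
  have hinj : Function.Injective fun n : ℤ => π ^ n := zpow_right_injective₀ hπ0 hπ1.ne
  set χ : AddChar (ZMod p) Qbar := AddChar.zmodChar p hζ.pow_eq_one with hχdef
  have hχ : ∀ j : ZMod p, χ j = ζ ^ j.val := AddChar.zmodChar_apply hζ.pow_eq_one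
  have hχp : ∀ j, χ j ^ p = 1 := fun j => by rw [hχ, pow_right_comm, hζ.pow_eq_one, one_pow]
  have hχ1 : ∀ j, A.valuation (χ j) = 1 := fun j => by
    rw [hχ, map_pow, S13.val_zeta_eq_one A.valuation hp.ne_zero hζ, one_pow]
  have hσχ : ∀ {σ : GalQ} {b : ZMod p}, σ ζ = ζ ^ b.val → ∀ j, σ (χ j) = χ (b * j) := by
    intro σ b hb j
    rw [hχ, map_pow, hb, ← hχ, ← AddChar.map_nsmul_eq_pow, nsmul_eq_mul, ZMod.natCast_zmod_val,
      mul_comm]
  -- the resolvents
  set g : ZMod p → Qbar := fun k => (∑ j, χ (-(k * j)) * X j) / (p : Qbar) with hg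
  have hσg : ∀ {σ : GalQ} {b c : ZMod p}, ActsBy ζ X Z σ b c → ∀ k, σ (g k) = χ (c * k) * g k := by
    intro σ b c h k
    simp only [hg]
    rw [map_div₀, map_natCast, map_sum, ← mul_div_assoc, Finset.mul_sum]
    congr 1
    refine Fintype.sum_equiv ((Equiv.mulLeft₀ b h.unit).trans (Equiv.addLeft c)) _ _ fun j => ?_
    simp only [Equiv.trans_apply, Equiv.coe_addLeft, Equiv.mulLeft₀_apply]
    rw [map_mul, hσχ h.zeta, h.move, ← mul_assoc, ← AddChar.map_add_eq_mul]
    congr 2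
    ring
  have hprim : χ.IsPrimitive := AddChar.zmodChar_primitive_of_primitive_root p hζ
  have hX : ∀ i, X i = ∑ k, g k * χ (k * i) := by
    intro i
    simp only [hg, div_mul_eq_mul_div, ← Finset.sum_div, Finset.sum_mul]
    rw [Finset.sum_comm, eq_div_iff hp0]
    have e : ∀ j : ZMod p, ∑ k, χ (-(k * j)) * X j * χ (k * i)
        = if i - j = 0 then (p : Qbar) * X j else 0 := by
      intro j
      have := AddChar.sum_mulShift (i - j) hprim
      rw [ZMod.card] at this
      rw [show ∑ k, χ (-(k * j)) * X j * χ (k * i) = (∑ k, χ (k * (i - j))) * X j by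
        rw [Finset.sum_mul]
        refine Finset.sum_congr rfl fun k _ => ?_
        rw [mul_right_comm, ← AddChar.map_add_eq_mul]
        congr 2
        ring, this]
      split_ifs <;> simp
    simp only [e, sub_eq_zero, Finset.sum_ite_eq, Finset.mem_univ, if_true]
    ring
  -- valuations of the resolvents
  have hgp : ∀ k, g k ≠ 0 → ∃ m : ℤ, A.valuation (g k) ^ p = π ^ m := by
    intro k hk
    obtain ⟨m, hm⟩ := valuation_eq_zpow_of_fixed hA hp (x := g k ^ p) (pow_ne_zero _ hk)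
      fun σ hσ => by
        obtain ⟨b, c, h⟩ := hact σ hσ
        rw [map_pow, hσg h, mul_pow, hχp, one_mul]
    exact ⟨m, by rw [← map_pow]; exact hm⟩
  by_cases hgood : ∃ k, k ≠ 0 ∧ g k ≠ 0 ∧ ∃ t : ℤ, A.valuation (g k) = π ^ t
  · obtain ⟨k, hk, hgk, t, ht⟩ := hgood
    set η := (g k / (p : Qbar) ^ t) ^ (k⁻¹).val with hη
    refine ⟨η, ?_, fun σ _ b c h => ?_⟩
    · rw [hη, map_pow, map_div₀, map_zpow₀, ← hπ, ht, div_self (zpow_ne_zero _ hπ0.ne'), one_pow]
    · have hση : σ η = χ c * η := by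
        rw [hη, map_pow, map_div₀, map_zpow₀, map_natCast, hσg h, mul_div_assoc, mul_pow,
          ← AddChar.map_nsmul_eq_pow, nsmul_eq_mul, ZMod.natCast_zmod_val,
          show k⁻¹ * (c * k) = c by rw [mul_comm c, ← mul_assoc, inv_mul_cancel₀ hk, one_mul]]
      exact ⟨by rw [map_pow, hση, mul_pow, hχp, one_mul], by rw [hση, hχ]⟩
  exfalso
  push Not at hgood
  choose m hm using hgp
  have hpm : ∀ k (hk : k ≠ 0) (hgk : g k ≠ 0), ¬ (p : ℤ) ∣ m k hgk := by
    rintro k hk hgk ⟨t, ht⟩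
    refine hgood k hk hgk t ((pow_left_inj₀ zero_le zero_le hp.ne_zero).mp ?_)
    rw [hm k hgk, ht, ← zpow_natCast, ← zpow_mul, mul_comm t]
  -- distinct resolvents have distinct valuations
  have hsep : ∀ k l, k ≠ 0 → g k ≠ 0 → g l ≠ 0 → A.valuation (g k) = A.valuation (g l) → k = l := by
    intro k l hk hgk hgl he
    set a := (l * k⁻¹).val with ha
    have hak : (a : ZMod p) * k = l := by
      rw [ha, ZMod.natCast_zmod_val, mul_assoc, inv_mul_cancel₀ hk, mul_one]
    obtain ⟨t, ht⟩ := valuation_eq_zpow_of_fixed hA hp (x := g l / g k ^ a)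
      (div_ne_zero hgl (pow_ne_zero _ hgk)) fun σ hσ => by
        obtain ⟨b, c, h⟩ := hact σ hσ
        rw [map_div₀, map_pow, hσg h, hσg h, mul_pow, ← AddChar.map_nsmul_eq_pow, nsmul_eq_mul,
          show (a : ZMod p) * (c * k) = c * l by rw [mul_left_comm, hak]]
        exact mul_div_mul_left _ _ fun h0 => by simpa [h0, hp.ne_zero] using hχp (c * l)
    have hmkl : m l hgl = m k hgk := hinj (by
      show π ^ _ = π ^ _
      rw [← hm, ← hm, he])
    have hrel : m k hgk = p * t + a * m k hgk := hinj (by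
      show π ^ _ = π ^ _
      rw [map_div₀, map_pow, ← he, div_eq_iff (pow_ne_zero _ ((map_ne_zero _).mpr hgk))] at ht
      have h' := congrArg (· ^ p) ht
      simp only [mul_pow, ← pow_mul] at h'
      rw [mul_comm a p, pow_mul, hm k hgk, ← zpow_natCast, ← zpow_natCast, ← zpow_mul,
        ← zpow_mul, ← zpow_add₀ hπ0.ne'] at h'
      rw [mul_comm (p : ℤ), mul_comm (a : ℤ)]
      exact h')
    have hz : ((1 : ZMod p) - a) * (m k hgk : ZMod p) = 0 := by
      have := congrArg (fun z : ℤ => (z : ZMod p)) hrel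
      push_cast [ZMod.natCast_self] at this
      linear_combination this
    rcases mul_eq_zero.mp hz with h1 | h1
    · rw [← hak, ← sub_eq_zero.mp h1, one_mul]
    · exact absurd ((ZMod.intCast_zmod_eq_zero_iff_dvd _ p).mp h1) (hpm k hk hgk)
  -- all distances agree
  have hζ0 : A.valuation (ζ - 1) ≠ 0 :=
    (map_ne_zero _).mpr (sub_ne_zero.mpr (hζ.ne_one hp.one_lt))
  have hχd : ∀ a : ZMod p, a ≠ 0 → A.valuation (χ a - 1) = A.valuation (ζ - 1) := by
    intro a ha
    have hpr : IsPrimitiveRoot (χ a) p := by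
      rw [hχ]
      exact hζ.pow_of_coprime _ (by
        exact (hp.coprime_iff_not_dvd.mpr fun hd => ha ((ZMod.val_eq_zero a).mp
          (Nat.eq_zero_of_dvd_of_lt hd (ZMod.val_lt a)))).symm)
    exact (pow_left_inj₀ zero_le zero_le (by have := hp.two_le; omega : p - 1 ≠ 0)).mp
      ((S13.val_zeta_sub_one_pow A.valuation hp hpr).trans
        (S13.val_zeta_sub_one_pow A.valuation hp hζ).symm)
  obtain ⟨k₀, hk₀, hgk₀, hmax⟩ : ∃ k₀, k₀ ≠ 0 ∧ g k₀ ≠ 0 ∧
      ∀ k, k ≠ 0 → k ≠ k₀ → A.valuation (g k) < A.valuation (g k₀) := by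
    have hne : (Finset.univ.filter fun k : ZMod p => k ≠ 0 ∧ g k ≠ 0).Nonempty := by
      by_contra hs
      rw [Finset.not_nonempty_iff_eq_empty, Finset.filter_eq_empty_iff] at hs
      refine hZ 1 one_ne_zero ((map_eq_zero A.valuation).mp ?_)
      rw [← hdist 1 one_ne_zero, hX, hX 0, ← Finset.sum_sub_distrib,
        Finset.sum_eq_zero fun k _ => ?_, map_zero]
      by_cases hk : k = 0
      · simp [hk]
      · rw [show g k = 0 from by_contra fun h => hs (Finset.mem_univ k) ⟨hk, h⟩]; simp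
    obtain ⟨k₀, hk₀, hmax⟩ := Finset.exists_max_image _ (fun k => A.valuation (g k)) hne
    obtain ⟨hk₀', hgk₀⟩ := (Finset.mem_filter.mp hk₀).2
    refine ⟨k₀, hk₀', hgk₀, fun k hk hkk => ?_⟩
    by_cases hgk : g k = 0
    · rw [hgk, map_zero]; exact zero_lt_iff.mpr ((map_ne_zero _).mpr hgk₀)
    · exact lt_of_le_of_ne (hmax k (Finset.mem_filter.mpr ⟨Finset.mem_univ _, hk, hgk⟩))
        fun h => hkk (hsep k k₀ hk hgk hgk₀ h)
  set D := A.valuation (g k₀) * A.valuation (ζ - 1) with hD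
  have hD' : ∀ j, j ≠ 0 → A.valuation (Z j) = D := by
    intro j hj
    rw [← hdist j hj, hX, hX 0, ← Finset.sum_sub_distrib,
      A.valuation.map_sum_eq_of_lt (Finset.mem_univ k₀), mul_zero, AddChar.map_zero_eq_one,
      ← mul_sub, map_mul, hχd _ (mul_ne_zero hk₀ hj)]
    intro k hk
    rw [Finset.mem_sdiff, Finset.mem_singleton] at hk
    rw [mul_zero, mul_zero, AddChar.map_zero_eq_one, ← mul_sub, ← mul_sub, A.valuation.map_mul,
      A.valuation.map_mul, hχd _ (mul_ne_zero hk₀ hj)]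
    by_cases hk0 : k = 0
    · simp only [hk0, zero_mul, AddChar.map_zero_eq_one, sub_self, map_zero, mul_zero]
      exact mul_pos (zero_lt_iff.mpr ((map_ne_zero _).mpr hgk₀)) (zero_lt_iff.mpr hζ0)
    · rw [hχd _ (mul_ne_zero hk0 hj)]
      exact mul_lt_mul_of_pos_right (hmax k hk0 hk.2) (zero_lt_iff.mpr hζ0)
  obtain ⟨n, hn⟩ := valuation_eq_zpow_of_fixed hA hp
    (x := ∏ j ∈ (Finset.univ : Finset (ZMod p)).erase 0, Z j)
    (Finset.prod_ne_zero_iff.mpr fun j hj => hZ j (Finset.ne_of_mem_erase hj)) fun σ hσ => by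
      obtain ⟨b, c, h⟩ := hact σ hσ
      rw [map_prod]
      refine Finset.prod_equiv (Equiv.mulLeft₀ b h.unit) (fun j => ?_) fun j _ => h.scale j
      simp [h.unit]
  rw [map_prod, Finset.prod_eq_pow_card fun j hj => hD' j (Finset.ne_of_mem_erase hj),
    Finset.card_erase_of_mem (Finset.mem_univ _), Finset.card_univ, ZMod.card, hD, mul_pow,
    S13.val_zeta_sub_one_pow A.valuation hp hζ, ← hπ] at hn
  have h' := congrArg (· ^ p) hn
  simp only [mul_pow] at h'
  rw [← pow_mul, mul_comm (p - 1) p, pow_mul, hm k₀ hgk₀, ← zpow_natCast (π ^ m k₀ hgk₀),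
    ← zpow_natCast π p, ← zpow_natCast (π ^ n) p, ← zpow_mul, ← zpow_mul,
    ← zpow_add₀ hπ0.ne'] at h'
  have h'' := congrArg (fun z : ℤ => (z : ZMod p)) (hinj h')
  push_cast [ZMod.natCast_self, Nat.cast_sub hp.one_le] at h''
  simp only [mul_zero, add_zero, zero_sub, mul_neg, mul_one, neg_eq_zero] at h''
  exact hpm k₀ hk₀ hgk₀ ((ZMod.intCast_zmod_eq_zero_iff_dvd _ p).mp h'')

end Fermat.Agent.ECFormal.Good
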