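import Fermat.Agent.ECFormal.Good.Flat
import Fermat.Agent.ECFormal.Good.Resolvent
import Fermat.Agent.ECFormal.Ordinary
import Fermat.Agent.ECFormal.Mult.Kummer

/-!
# `E[p]` at a place of good ordinary reduction

A basis `P, Q` with `Q` in the kernel of reduction and a unit `η` with `η ^ p` fixed by inertia,
such that for `σ` in inertia `σ ζ = ζ ^ b`, `σ η = ζ ^ c * η`, `σ Q = b Q`, `σ P = P + c Q`.
`η` is a resolvent of the abscissae of `P + j Q`: their distances are the `z`-coordinates of `j Q`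
as `2 P` does not reduce to the origin.
-/

set_option autoImplicit false

noncomputable section

namespace Fermat.Agent.ECFormal

open WeierstrassCurve
open Fermat.Agent.Galois (Qbar GalQ)
open Fermat.Agent.ECLocal (InKernel NonsingRed zCoord IntegralAt GoodAt)
open scoped WeierstrassCurve.Affine

/-- The abscissae of an integral point and its translate by a kernel point differ as the
`z`-coordinate of the latter. -/
theorem valuation_translate_sub {K : Type*} [Field K] [DecidableEq K] {A : ValuationSubring K}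
    {V : WeierstrassCurve K} (hV : IntegralAt A V) {x y : K} (h : V.toAffine.Nonsingular x y)
    (hx : x ∈ A) (hψ : A.valuation (2 * y + V.a₁ * x + V.a₃) = 1) {S : V.toAffine.Point}
    (hS : InKernel A S) :
    A.valuation (Good.xCoord (Affine.Point.some x y h + S) - x) = A.valuation (zCoord S) := by
  have hy := ECLocal.y_mem_of_x_mem hV h.1 hx
  obtain ⟨hz, hw, -⟩ := Good.kernel_coords hV hS
  obtain ⟨h', he⟩ := Good.translate_law hV h hx hS
  rw [he, Good.xCoord_some, Good.transX, add_sub_cancel_left, map_mul, map_mul,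
    (Good.transUnit_spec hV hx hy hz hw).1, mul_one]
  have hsmall := Good.small_transThirdY hV hx hy hz hw
  rw [show Good.transThirdY V x y (zCoord S) (Good.wCoord S) - y
      = (Good.transThirdY V x y (zCoord S) (Good.wCoord S) + (y + (V.a₁ * x + V.a₃)))
        - (2 * y + V.a₁ * x + V.a₃) by ring,
    A.valuation.map_sub_eq_of_lt_right (by rw [hψ]; exact hsmall), hψ, mul_one]

variable (W : WeierstrassCurve ℤ) {p : ℕ} {A : ValuationSubring Qbar}

/-- A point of odd order outside the kernel of reduction is not congruent to its opposite. -/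
theorem valuation_polyY_eq_one (hp2 : p % 2 = 1) (hV : GoodAt A (curveQbar W)) {x y : Qbar}
    {h : (curveQbar W).toAffine.Nonsingular x y} (hx : x ∈ A)
    (hpP : p • (Affine.Point.some x y h : PointQbar W) = 0) :
    A.valuation (2 * y + (curveQbar W).a₁ * x + (curveQbar W).a₃) = 1 := by
  have hi := hV.toIntegralAt
  have hy := ECLocal.y_mem_of_x_mem hi h.1 hx
  refine le_antisymm ((A.valuation_le_one_iff _).mpr (ECLocal.polyY_mem hi hx hy))
    (not_lt.mp fun hlt => ?_)
  set P : PointQbar W := Affine.Point.some x y h with hP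
  have h2 : InKernel A (P + P) := by
    refine ECLocal.inKernel_add_of_opposite hi hx hx (ECLocal.nonsingRed_of_good hV P) ?_ ?_
    · rw [sub_self, map_zero]; exact zero_lt_one
    · rw [Affine.negY, show y - (-y - (curveQbar W).a₁ * x - (curveQbar W).a₃)
        = 2 * y + (curveQbar W).a₁ * x + (curveQbar W).a₃ by ring]
      exact hlt
  obtain ⟨t, ht⟩ : ∃ t, p = 2 * t + 1 := ⟨p / 2, by omega⟩
  have hker : P ∈ kerRed W A := by
    have h' := (kerRed W A).nsmul_mem (show P + P ∈ kerRed W A from h2) (t + 1)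
    rwa [← two_nsmul, ← mul_nsmul', show (t + 1) * 2 = p + 1 by omega, succ_nsmul, hpP,
      zero_add] at h'
  exact (mem_kerRed W).mp hker hx

theorem exists_kummer_of_good (hp : p.Prime) (hp2 : p ≠ 2) (hA : A.LiesOverPrime p)
    (hgood : ¬ (p : ℤ) ∣ W.Δ) (hord : OrdinaryAtPlace W p A) :
    ∃ (P Q : Tors W p) (ζ η : Qbar), InKernel A (Q : PointQbar W) ∧
      ¬ InKernel A (P : PointQbar W) ∧ IsPrimitiveRoot ζ p ∧ A.valuation η = 1 ∧
      Function.Bijective (fun ij : ZMod p × ZMod p => ij.1.val • P + ij.2.val • Q) ∧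
      ∀ σ ∈ A.inertiaSubgroupIn ℚ, σ (η ^ p) = η ^ p ∧
        ∃ b c : ZMod p, σ ζ = ζ ^ b.val ∧ σ η = ζ ^ c.val * η ∧
          σ • Q = b.val • Q ∧ σ • P = P + c.val • Q := by
  have := Fact.mk hp
  have := NeZero.mk hp.ne_zero
  have hΔ : W.Δ ≠ 0 := fun h => hgood (h ▸ dvd_zero _)
  have hss : SemistableAt W p := semistableAt_of_good hgood
  have hV : GoodAt A (curveQbar W) := ECLocal.goodAt_intModel W hp hgood A hA
  have hi := hV.toIntegralAt
  obtain ⟨ζ, hζ⟩ := HasEnoughRootsOfUnity.exists_primitiveRoot Qbar p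
  obtain ⟨Q₀, hQ₀k, hQ₀, hpQ₀⟩ := exists_kernel_prime_point W hΔ hA hp hp2 hss
  have hQord : addOrderOf Q₀ = p := addOrderOf_eq_prime hpQ₀ hQ₀
  obtain ⟨P, hPk⟩ := hord
  have hord' : OrdinaryAtPlace W p A := ⟨P, hPk⟩
  have hpP : p • (P : PointQbar W) = 0 := nsmul_tors_eq_zero W P
  let Q : Tors W p := ⟨Q₀, (mem_tors_iff W Q₀).mpr hpQ₀⟩
  set ψ := lineHom Q₀ hpQ₀ with hψ
  have hψ' : ∀ j, ψ j = j.val • Q₀ := lineHom_apply Q₀ hpQ₀
  have hψk : ∀ j, InKernel A (ψ j) := fun j => by
    rw [hψ']; exact (kerRed W A).nsmul_mem hQ₀k _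
  have hψ0 : ∀ j, j ≠ 0 → ψ j ≠ 0 := fun j hj h => hj ((ZMod.val_eq_zero j).mp (by
    rw [hψ'] at h
    exact Nat.eq_zero_of_dvd_of_lt ((dvd_of_eq hQord.symm).trans (addOrderOf_dvd_of_nsmul_eq_zero h)) (ZMod.val_lt j)))
  have hker : ∀ R : PointQbar W, InKernel A R → p • R = 0 → ∃ j : ZMod p, R = ψ j := by
    intro R hR hpR
    obtain ⟨i, hi'⟩ := AddSubgroup.mem_zmultiples_iff.mp
      (mem_zmultiples_of_kernel_prime W hΔ hp hord' hQ₀k hQord hR hpR)
    exact ⟨(i : ZMod p), by rw [hψ, lineHom_intCast, hi']⟩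
  set X : ZMod p → Qbar := fun j => Good.xCoord ((P : PointQbar W) + ψ j) with hX
  set Z : ZMod p → Qbar := fun j => zCoord (ψ j) with hZ
  -- the action of inertia
  have hgal : ∀ σ ∈ A.inertiaSubgroupIn ℚ, ∃ b c : ZMod p, Good.ActsBy ζ X Z σ b c ∧
      σ • Q = b.val • Q ∧ σ • P = P + c.val • Q := by
    intro σ hσ
    obtain ⟨i, hi', hσζ⟩ := hζ.eq_pow_of_pow_eq_one
      (show σ ζ ^ p = 1 by rw [← map_pow, hζ.pow_eq_one, map_one])
    have hb : ((i : ZMod p)).val = i := ZMod.val_natCast_of_lt hi'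
    have hb0 : (i : ZMod p) ≠ 0 := fun h0 => by
      rw [h0, ZMod.val_zero] at hb
      rw [← hb, pow_zero, eq_comm, map_eq_one_iff σ σ.injective] at hσζ
      exact hζ.ne_one hp.one_lt hσζ
    obtain ⟨c, hc⟩ := hker (σ • (P : PointQbar W) - P)
      (ECLocal.inKernel_smul_sub hi hσ (ECLocal.nonsingRed_of_good hV _))
      (by rw [nsmul_sub, smul_comm, hpP]; exact sub_self _)
    have hQ₁ : σ • Q₀ = ψ (i : ZMod p) := by
      have h := smul_eq_cyclotomic_mul_sign W hΔ hA hp hp2 hss hord'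
        (ECLocal.decomposition_of_inertia hσ) (z := 1) (Or.inl rfl)
        (fun n R => by
          rw [one_zsmul]; exact inKernel_smul_sub_tors W hΔ hA hp hp2 hss hσ R)
        (n := 1) (a := i) (fun μ hμ => by
          obtain ⟨k, -, rfl⟩ := hζ.eq_pow_of_pow_eq_one (by simpa using hμ)
          rw [map_pow, ← hσζ, pow_right_comm])
        ⟨Q₀, (mem_tors_iff W Q₀).mpr (by rw [pow_one]; exact hpQ₀)⟩ hQ₀k
      rw [mul_one, natCast_zsmul] at h
      rw [hψ', hb]
      exact congrArg Subtype.val h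
    have hσψ : ∀ j, σ • ψ j = ψ ((i : ZMod p) * j) := fun j => by
      have e : σ • (j.val • Q₀) = j.val • (σ • Q₀) :=
        map_nsmul (Affine.Point.map σ.toAlgHom) j.val Q₀
      rw [hψ' j, e, hQ₁, ← map_nsmul, nsmul_eq_mul, ZMod.natCast_zmod_val, mul_comm]
    refine ⟨i, c, ⟨hb0, by rw [hb, hσζ], fun j => ?_, fun j => ?_⟩, Subtype.ext ?_, Subtype.ext ?_⟩
    · rw [hX]
      simp only
      have e : σ • ((P : PointQbar W) + ψ j) = σ • (P : PointQbar W) + σ • ψ j :=
        map_add (Affine.Point.map σ.toAlgHom) _ _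
      rw [← (Good.zCoord_smul σ _).2.2.1, e, hσψ, map_add,
        sub_eq_iff_eq_add'.mp hc, add_assoc]
    · rw [hZ]
      simp only
      rw [← (Good.zCoord_smul σ _).1, hσψ]
    · show σ • Q₀ = _ • Q₀
      rw [hQ₁, hψ']
    · show σ • (P : PointQbar W) = _
      rw [sub_eq_iff_eq_add'.mp hc, hψ']
      rfl
  -- distances
  have hdist : ∀ j, j ≠ 0 → A.valuation (X j - X 0) = A.valuation (Z j) := by
    intro j _
    obtain ⟨xp, yp, hns, hPeq⟩ : ∃ xp yp, ∃ hns : (curveQbar W).toAffine.Nonsingular xp yp,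
        (P : PointQbar W) = Affine.Point.some xp yp hns := by
      rcases hP : (P : PointQbar W) with _ | ⟨xp, yp, hns⟩
      · exact absurd (by rw [hP]; exact trivial) hPk
      · exact ⟨xp, yp, hns, rfl⟩
    rw [hPeq] at hPk hpP
    rw [hX, hZ]
    simp only [map_zero, add_zero, hPeq, Good.xCoord_some]
    exact valuation_translate_sub hi hns (not_not.mp hPk)
      (valuation_polyY_eq_one W (Nat.odd_iff.mp (hp.odd_of_ne_two hp2)) hV (not_not.mp hPk) hpP)
      (hψk j)
  obtain ⟨η, hη, hσ⟩ := Good.exists_unit_resolvent hA hζ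
    (fun σ hσ => let ⟨b, c, h, _⟩ := hgal σ hσ; ⟨b, c, h⟩)
    (fun j hj => ECLocal.zCoord_ne_zero hi (hψk j) (hψ0 j hj)) hdist
  refine ⟨P, Q, ζ, η, hQ₀k, hPk, hζ, hη, ?_, fun σ hσI => ?_⟩
  · let Φ : ZMod p × ZMod p →+ PointQbar W := (lineHom (P : PointQbar W) hpP).coprod ψ
    have hΦ : Function.Injective Φ := by
      rw [injective_iff_map_eq_zero]
      rintro ⟨i, j⟩ hij
      rw [AddMonoidHom.coprod_apply] at hij
      have hi' : i = 0 := by
        by_contra hne
        apply hPk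
        have h1 : lineHom (P : PointQbar W) hpP i ∈ kerRed W A := by
          rw [add_eq_zero_iff_eq_neg] at hij
          rw [hij]
          exact (kerRed W A).neg_mem (hψk j)
        have h2 := (kerRed W A).nsmul_mem h1 (i⁻¹).val
        rwa [← map_nsmul, nsmul_eq_mul, ZMod.natCast_zmod_val, inv_mul_cancel₀ hne, ← Int.cast_one,
          lineHom_intCast, one_zsmul, mem_kerRed] at h2
      subst hi'
      rw [map_zero, zero_add] at hij
      exact Prod.ext rfl (by_contra fun hj => hψ0 j hj hij)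
    have := finite_tors W hΔ hp.ne_zero
    refine (Nat.bijective_iff_injective_and_card _).mpr ⟨fun u v huv => hΦ ?_, ?_⟩
    · have h := congrArg (fun R : Tors W p => (R : PointQbar W)) huv
      simpa [Φ, AddMonoidHom.coprod_apply, hψ', lineHom_apply, Q] using h
    · rw [Nat.card_prod, Nat.card_zmod, natCard_tors W hΔ hp.ne_zero, sq]
  obtain ⟨b, c, h, hQ, hP⟩ := hgal σ hσI
  exact ⟨(hσ σ hσI b c h).1, b, c, h.zeta, (hσ σ hσI b c h).2, hQ, hP⟩

end Fermat.Agent.ECFormal
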